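import Fermat.Agent.S42x.Heq.H23_Div
import Fermat.Agent.S42x.Asm.H23_EigKum

/-!
# W7 (S42 / S29), (K-hecke): the plug (helper23)

* `StHeckeAn N p e ζ` : **(KH-AN)**, the analytic half of (K-hecke): if `y ^ p = iota e f` and
  `y` has the multiplier `ζ ^ b`, then `Norm_α (β f)` has a `p`-th root `y'` on `ℍ` with the
  multiplier `ζ ^ b'`, `b'` given by the coset formula (`y' = ∏_i y ∘ δ_i`);
* `h23_kumHecke_of_an` : (KH-AN) + (KH-DIV) ⟹ (K-hecke), in the shape of the hypothesis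
  `hhecke` of `h23_stEig_of_kum` VERBATIM;
* `h23_stEig_of_an` : `Asm.StEig` from (K-ex), (K-uniq) and (KH-AN).
-/

set_option autoImplicit false
set_option linter.style.haveILetI false
set_option synthInstance.maxHeartbeats 400000
set_option maxHeartbeats 1000000

open IntermediateField ModularCurve ModularCurve.Period AlgebraicCurve CongruenceSubgroup
open Fermat.Agent.S24.Mer Fermat.Agent.S22 Fermat.Agent.S16x.Low.H5
open Fermat.Agent.S42x.Kum.H12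
open scoped MatrixGroups

noncomputable section

namespace Fermat.Agent.S42x.Heq.H23

/-- **(KH-AN)**: the analytic half of (K-hecke). -/
def StHeckeAn (N p : ℕ) [NeZero N] (e : AlgebraicClosure ℚ →+* ℂ) (ζ : ℂ) : Prop :=
  ∀ ℓ : Nat.Primes, ¬ (ℓ : ℕ) ∣ N →
    ∀ (f : modularFunctionFieldBar N) (y : MerH) (b b' : Additive (Gamma0 N) →+ ℤ),
      f ≠ 0 → y ^ p = iota e f →
      (∀ γ : Gamma0 N, tauE (γ : SL(2, ℤ)) y = cM (ζ ^ (b (Additive.ofMul γ))) * y) →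
      (haveI : Fact (ℓ : ℕ).Prime := ⟨ℓ.2⟩
       ∀ (γ : Gamma0 N) (σ : Equiv.Perm (OnePoint (ZMod (ℓ : ℕ))))
        (γ' : OnePoint (ZMod (ℓ : ℕ)) → SL(2, ℤ))
        (h : CosetData (tA ℓ) (tB ℓ) (tD ℓ) N (γ : SL(2, ℤ)) σ γ'),
        ∑ i, b (Additive.ofMul (⟨γ' i, h.1 i⟩ : Gamma0 N)) = b' (Additive.ofMul γ)) →
      haveI : NeZero (ℓ : ℕ) := ⟨ℓ.2.ne_zero⟩
      letI := algebraAlong (heckeAlphaBar (AlgebraicClosure ℚ) N ℓ)
      ∃ y' : MerH,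
        y' ^ p = iota e (Algebra.norm (modularFunctionFieldBar N)
          (heckeBetaBar (AlgebraicClosure ℚ) N ℓ f)) ∧
        ∀ γ : Gamma0 N, tauE (γ : SL(2, ℤ)) y' = cM (ζ ^ (b' (Additive.ofMul γ))) * y'

/-- **(K-hecke)** from (KH-AN) and (KH-DIV), in the shape of `hhecke` of `h23_stEig_of_kum`. -/
theorem h23_kumHecke_of_an {N p : ℕ} [NeZero N] {e : AlgebraicClosure ℚ →+* ℂ} {ζ : ℂ}
    (han : StHeckeAn N p e ζ) :
    ∀ ℓ : Nat.Primes, ¬ (ℓ : ℕ) ∣ N * p → ∀ x b b', KumRel N p e ζ x b →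
      IsParabolicHom (Gamma0 N) b →
      (haveI : Fact (ℓ : ℕ).Prime := ⟨ℓ.2⟩
       ∀ (γ : Gamma0 N) (σ : Equiv.Perm (OnePoint (ZMod (ℓ : ℕ))))
        (γ' : OnePoint (ZMod (ℓ : ℕ)) → SL(2, ℤ))
        (h : CosetData (tA ℓ) (tB ℓ) (tD ℓ) N (γ : SL(2, ℤ)) σ γ'),
        ∑ i, b (Additive.ofMul (⟨γ' i, h.1 i⟩ : Gamma0 N)) = b' (Additive.ofMul γ)) →
      KumRel N p e ζ (heckeOperatorBar N ℓ x) b' := by
  intro ℓ hℓ x b b' hxb _ hcos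
  have hℓN : ¬ (ℓ : ℕ) ∣ N := fun h => hℓ (Dvd.dvd.mul_right h p)
  obtain ⟨f, D, y, hf, hD, hx, hy, hγ⟩ := hxb
  obtain ⟨D', hTD, hnorm, hD'⟩ := h23_hecke_div N ℓ p f hf D hD
  obtain ⟨y', hy', hγ'⟩ := han ℓ hℓN f y b b' hf hy hγ hcos
  exact ⟨_, D', y', hnorm, hD', by rw [← hx, hTD], hy', hγ'⟩

/-- **(EIG)** from (K-ex), (K-uniq) and the analytic half (KH-AN) of (K-hecke). -/
theorem h23_stEig_of_an (N p : ℕ) [NeZero N] [Fact p.Prime]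
    (g : CuspForm (Gamma0 N) 2) (hg : g.IsNormalizedEigenform)
    (𝔪 : Ideal Fermat.Agent.S42x.Asm.Zbar) [𝔪.IsMaximal]
    (hp : (p : Fermat.Agent.S42x.Asm.Zbar) ∈ 𝔪)
    (e : AlgebraicClosure ℚ →+* ℂ) (ζ : ℂ) (hζ : IsPrimitiveRoot ζ p)
    (hex : ∀ b, IsParabolicHom (Gamma0 N) b → ∃ x, KumRel N p e ζ x b)
    (huniq : ∀ x, KumRel N p e ζ x 0 → x = 0)
    (han : StHeckeAn N p e ζ) :
    Fermat.Agent.S42x.Asm.StEig N p g 𝔪 :=
  Fermat.Agent.S42x.Asm.H23.h23_stEig_of_kum N p g hg 𝔪 hp e ζ hζ hex huniq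
    (h23_kumHecke_of_an han)

end Fermat.Agent.S42x.Heq.H23
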