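import Fermat.Agent.S24.H21_Iota
import Fermat.Prelude.Def_ModularCurve_HeckeOperator

/-!
# W7 (S42 / S29), (KH-AN), sub-leaf (AN2a) (helper3): the two degeneracy maps on `ℍ`

`F_N = FK K N` the function field of `X₀(N)` over `K`, realised in `MerH` by `iota e`
(`e : K →+* ℂ`); `α, β : F_N → F_{Nℓ}` the two degeneracy maps (`α` the inclusion of
`q`-expansions, `β : q ↦ q ^ ℓ`).

* `h3_level_alpha` : `iota e (α x) = iota e x` (the realisation does not depend on the level);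
* `h3_level_beta`  : `iota e (β x) = S (iota e x)` for every ring endomorphism `S` of `MerH`
  which is `F ↦ F (ℓ z)` on holomorphic functions.
-/

set_option autoImplicit false
set_option linter.style.haveILetI false
set_option linter.unusedSectionVars false

open UpperHalfPlane CongruenceSubgroup ModularCurve IntermediateField
open Fermat.Agent.S24.Mer Fermat.Agent.S24.Real Fermat.Agent.S23

namespace Fermat.Agent.S42x.Heq.H3

variable {K : Type*} [Field K] [Algebra ℚ K] (e : K →+* ℂ) (N ℓ : ℕ) [NeZero N] [NeZero ℓ]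

/-- `K[j_d : d ∣ N] ⊆ K[j_d : d ∣ N ℓ]`. -/
theorem h3_AK_le : AK K N ≤ AK K (N * ℓ) := by
  refine Algebra.adjoin_mono (Set.image_mono ?_)
  rintro x ⟨d, hd0, hd, rfl⟩
  exact ⟨d, hd0, Dvd.dvd.mul_right hd ℓ, rfl⟩

/-- `q ↦ q ^ ℓ` maps `K[j_d : d ∣ N]` into `K[j_d : d ∣ N ℓ]`. -/
theorem h3_qExpand_mem_AK {x : LaurentSeries K} (hx : x ∈ AK K N) :
    qExpand K ℓ x ∈ AK K (N * ℓ) := by
  induction hx using Algebra.adjoin_induction with
  | mem x hx =>
    obtain ⟨y, ⟨d, hd0, hd, rfl⟩, rfl⟩ := hx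
    haveI := hd0
    haveI : NeZero (ℓ * d) := ⟨mul_ne_zero (NeZero.ne ℓ) (NeZero.ne d)⟩
    have h1 : qExpand K ℓ (coeffEmb K (qExpand ℚ d jq)) = coeffEmb K (qExpand ℚ (ℓ * d) jq) := by
      rw [← qExpand_qExpand]
      exact (Fermat.Agent.S24.Real.coeffMap_qExpand (algebraMap ℚ K) ℓ (qExpand ℚ d jq)).symm
    rw [h1]
    refine Algebra.subset_adjoin ⟨_, ⟨ℓ * d, inferInstance, ?_, rfl⟩, rfl⟩
    rw [mul_comm]
    exact Nat.mul_dvd_mul_right hd ℓ
  | algebraMap a =>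
    rw [algebraMap_laurentSeries_eq_single, qExpand_single, mul_zero,
      ← algebraMap_laurentSeries_eq_single]
    exact Subalgebra.algebraMap_mem _ a
  | add x y _ _ hx hy => rw [map_add]; exact add_mem hx hy
  | mul x y _ _ hx hy => rw [map_mul]; exact mul_mem hx hy

/-- the inclusion `K[j_d : d ∣ N] → K[j_d : d ∣ N ℓ]`. -/
noncomputable def h3AlphaA (a : AK K N) : AK K (N * ℓ) := ⟨a.1, h3_AK_le N ℓ a.2⟩

/-- `q ↦ q ^ ℓ` as a map `K[j_d : d ∣ N] → K[j_d : d ∣ N ℓ]`. -/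
noncomputable def h3BetaA (a : AK K N) : AK K (N * ℓ) :=
  ⟨qExpand K ℓ a.1, h3_qExpand_mem_AK N ℓ a.2⟩

theorem coe_h3AlphaA (a : AK K N) :
    ((h3AlphaA N ℓ a : AK K (N * ℓ)) : LaurentSeries K) = (a : LaurentSeries K) :=
  Subtype.coe_mk _ _

theorem coe_h3BetaA (a : AK K N) :
    ((h3BetaA N ℓ a : AK K (N * ℓ)) : LaurentSeries K) = qExpand K ℓ (a : LaurentSeries K) :=
  Subtype.coe_mk _ _

theorem h3AlphaA_ne_zero {a : AK K N} (ha : a ≠ 0) : h3AlphaA N ℓ a ≠ 0 := by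
  intro h
  have h1 := congrArg Subtype.val h
  rw [coe_h3AlphaA, ZeroMemClass.coe_zero] at h1
  exact ha (Subtype.ext (by rw [h1, ZeroMemClass.coe_zero]))

theorem h3BetaA_ne_zero {a : AK K N} (ha : a ≠ 0) : h3BetaA N ℓ a ≠ 0 := by
  intro h
  have h1 := congrArg Subtype.val h
  rw [coe_h3BetaA, ZeroMemClass.coe_zero] at h1
  have h2 := (map_eq_zero_iff _ (qExpand K ℓ).injective).mp h1
  exact ha (Subtype.ext (by rw [h2, ZeroMemClass.coe_zero]))

theorem h3_rho_alphaA (a : AK K N) : rho e (h3AlphaA N ℓ a) = rho e a := by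
  have h1 := (isModReal_rho e (h3AlphaA N ℓ a)).real
  have h2 := (isModReal_rho e a).real
  rw [coe_h3AlphaA] at h1
  exact h1.unique_fun h2

theorem h3_rho_betaA (a : AK K N) :
    rho e (h3BetaA N ℓ a) = fun z => rho e a (scaleN ℓ z) := by
  have h1 := (isModReal_rho e (h3BetaA N ℓ a)).real
  have h2 := (isModReal_rho e a).real.scale ℓ
  rw [coe_h3BetaA, Fermat.Agent.S24.Real.coeffMap_qExpand e ℓ] at h1
  exact h1.unique_fun h2

/-- **(C1)** the realisation on `ℍ` does not depend on the level. -/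
theorem h3_level_alpha (x : FK K N) : iota e (heckeAlphaBar K N ℓ x) = iota e x := by
  obtain ⟨a, b, hb, hab⟩ := exists_frac x
  have hab' : heckeAlphaBar K N ℓ x * inclAK K (N * ℓ) (h3AlphaA N ℓ b) =
      inclAK K (N * ℓ) (h3AlphaA N ℓ a) := by
    apply Subtype.ext
    have h0 := congrArg Subtype.val hab
    rw [MulMemClass.coe_mul, coe_inclAK, coe_inclAK] at h0
    rw [MulMemClass.coe_mul, coe_heckeAlphaBar, coe_inclAK, coe_inclAK, coe_h3AlphaA,
      coe_h3AlphaA]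
    exact h0
  rw [iota_eq_div e _ _ _ (h3AlphaA_ne_zero N ℓ hb) hab', iota_eq_div e x a b hb hab]
  have h1 : rhoH e (h3AlphaA N ℓ a) = rhoH e a := Subtype.ext (h3_rho_alphaA e N ℓ a)
  have h2 : rhoH e (h3AlphaA N ℓ b) = rhoH e b := Subtype.ext (h3_rho_alphaA e N ℓ b)
  rw [h1, h2]

/-- **(C4) = (AN2a)** `β` is `F ↦ F (ℓ z)` on `ℍ`. -/
theorem h3_level_beta (S : MerH →+* MerH)
    (hS : ∀ F G : HolH, (∀ z : ℍ, (G : ℍ → ℂ) z = (F : ℍ → ℂ) (scaleN ℓ z)) →
      S (algebraMap HolH MerH F) = algebraMap HolH MerH G)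
    (x : FK K N) : iota e (heckeBetaBar K N ℓ x) = S (iota e x) := by
  obtain ⟨a, b, hb, hab⟩ := exists_frac x
  have hab' : heckeBetaBar K N ℓ x * inclAK K (N * ℓ) (h3BetaA N ℓ b) =
      inclAK K (N * ℓ) (h3BetaA N ℓ a) := by
    apply Subtype.ext
    have h0 := congrArg Subtype.val hab
    rw [MulMemClass.coe_mul, coe_inclAK, coe_inclAK] at h0
    rw [MulMemClass.coe_mul, coe_heckeBetaBar, coe_inclAK, coe_inclAK, coe_h3BetaA,
      coe_h3BetaA, ← h0, map_mul]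
  rw [iota_eq_div e _ _ _ (h3BetaA_ne_zero N ℓ hb) hab', iota_eq_div e x a b hb hab, map_div₀,
    hS (rhoH e a) (rhoH e (h3BetaA N ℓ a)) (fun z => congrFun (h3_rho_betaA e N ℓ a) z),
    hS (rhoH e b) (rhoH e (h3BetaA N ℓ b)) (fun z => congrFun (h3_rho_betaA e N ℓ b) z)]

end Fermat.Agent.S42x.Heq.H3
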