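import Fermat.Agent.S42x.Heq.H26_NormRel
import Fermat.Agent.S42x.Heq.H3_Level
import Fermat.Prelude.Def_ModularForm_HeckeOperator

/-!
# W7 (KH-AN) (helper26): translation operators on `MerH` (spare of (AN1))

`h26T ℓ x : MerH →+* MerH`, `y ↦ y ∘ δ_x`, `δ_x = [tA ℓ x, tB ℓ x; 0, tD ℓ x]`, defined through
the action of `GL(2, ℝ)⁺` on the upper half plane; the identity for `ℓ = 0`.

* `h26T_cM`    : constants are fixed;
* `h26_stComm` : the one-index commutation rule `StComm ℓ (h26T ℓ)`;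
* `h26T_infty` : `h26T ℓ ∞ (F) = F ∘ scaleN ℓ` on holomorphic functions.
-/

set_option autoImplicit false
set_option linter.style.haveILetI false
set_option linter.unusedSectionVars false
set_option maxHeartbeats 1000000

open UpperHalfPlane CongruenceSubgroup
open Fermat.Agent.S24.Mer Fermat.Agent.S22
open Fermat.Agent.S42x.Kum.H12
open scoped MatrixGroups Manifold

noncomputable section

namespace Fermat.Agent.S42x.Heq.H26

/-- Composition with an element of `GL(2, ℝ)⁺`, on holomorphic functions. -/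
def compG (g : GL (Fin 2) ℝ) (hg : 0 < g.det.val) : HolH →+* HolH where
  toFun F := ⟨fun z => (F : ℍ → ℂ) (g • z), F.2.comp (UpperHalfPlane.mdifferentiable_smul hg)⟩
  map_one' := rfl
  map_mul' _ _ := rfl
  map_zero' := rfl
  map_add' _ _ := rfl

@[simp] theorem compG_apply (g : GL (Fin 2) ℝ) (hg : 0 < g.det.val) (F : HolH) (z : ℍ) :
    (compG g hg F : ℍ → ℂ) z = (F : ℍ → ℂ) (g • z) := rfl

theorem compG_injective (g : GL (Fin 2) ℝ) (hg : 0 < g.det.val) :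
    Function.Injective (compG g hg) := by
  intro F G h
  apply Subtype.ext
  funext w
  have h1 := congrFun (congrArg Subtype.val h) (g⁻¹ • w)
  simpa using h1

/-- Composition with an element of `GL(2, ℝ)⁺`, on meromorphic functions. -/
def compE (g : GL (Fin 2) ℝ) (hg : 0 < g.det.val) : MerH →+* MerH :=
  IsFractionRing.lift (A := HolH) (K := MerH) (g := (algebraMap HolH MerH).comp (compG g hg))
    (algebraMap_MerH_injective.comp (compG_injective g hg))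

theorem compE_algebraMap (g : GL (Fin 2) ℝ) (hg : 0 < g.det.val) (F : HolH) :
    compE g hg (algebraMap HolH MerH F) = algebraMap HolH MerH (compG g hg F) :=
  IsFractionRing.lift_algebraMap
    (g := (algebraMap HolH MerH).comp (compG g hg))
    (algebraMap_MerH_injective.comp (compG_injective g hg)) F

/-- Two ring homomorphisms on `MerH` which agree on holomorphic functions are equal. -/
theorem ringHom_ext_MerH {R : Type*} [Semiring R] {j k : MerH →+* R}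
    (h : ∀ F : HolH, j (algebraMap HolH MerH F) = k (algebraMap HolH MerH F)) : j = k :=
  IsLocalization.ringHom_ext (nonZeroDivisors HolH) (RingHom.ext h)

theorem tD_mul_tA_pos (ℓ : ℕ) (hℓ : ℓ ≠ 0) (x : OnePoint (ZMod ℓ)) :
    (0 : ℝ) < ((tA ℓ x : ℤ) : ℝ) * ((tD ℓ x : ℤ) : ℝ) := by
  have hpos : (0 : ℝ) < (ℓ : ℝ) := by exact_mod_cast Nat.pos_of_ne_zero hℓ
  cases x with
  | infty =>
    have hA : tA ℓ OnePoint.infty = (ℓ : ℤ) := rfl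
    have hD : tD ℓ OnePoint.infty = 1 := rfl
    rw [hA, hD]
    simpa using hpos
  | coe j =>
    have hA : tA ℓ (j : OnePoint (ZMod ℓ)) = 1 := rfl
    have hD : tD ℓ (j : OnePoint (ZMod ℓ)) = (ℓ : ℤ) := rfl
    rw [hA, hD]
    simpa using hpos

/-- The matrix `δ_x = [tA ℓ x, tB ℓ x; 0, tD ℓ x]` in `GL(2, ℝ)`. -/
def dG (ℓ : ℕ) (hℓ : ℓ ≠ 0) (x : OnePoint (ZMod ℓ)) : GL (Fin 2) ℝ :=
  ModularForm.upperTriangularGL (tA ℓ x : ℤ) (tB ℓ x : ℤ) (tD ℓ x : ℤ)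
    (tD_mul_tA_pos ℓ hℓ x).ne'

theorem val_dG (ℓ : ℕ) (hℓ : ℓ ≠ 0) (x : OnePoint (ZMod ℓ)) :
    ((dG ℓ hℓ x : GL (Fin 2) ℝ) : Matrix (Fin 2) (Fin 2) ℝ)
      = !![((tA ℓ x : ℤ) : ℝ), ((tB ℓ x : ℤ) : ℝ); 0, ((tD ℓ x : ℤ) : ℝ)] := rfl

theorem det_dG_pos (ℓ : ℕ) (hℓ : ℓ ≠ 0) (x : OnePoint (ZMod ℓ)) :
    0 < (dG ℓ hℓ x).det.val := by
  rw [Matrix.GeneralLinearGroup.val_det_apply, val_dG, Matrix.det_fin_two_of]
  simpa using tD_mul_tA_pos ℓ hℓ x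

/-- **The translation operators** `y ↦ y ∘ δ_x` (total in `ℓ`). -/
def h26T (ℓ : ℕ) (x : OnePoint (ZMod ℓ)) : MerH →+* MerH :=
  if hℓ : ℓ = 0 then RingHom.id MerH else compE (dG ℓ hℓ x) (det_dG_pos ℓ hℓ x)

theorem h26T_of_ne (ℓ : ℕ) (hℓ : ℓ ≠ 0) (x : OnePoint (ZMod ℓ)) :
    h26T ℓ x = compE (dG ℓ hℓ x) (det_dG_pos ℓ hℓ x) := by
  unfold h26T
  rw [dif_neg hℓ]

theorem h26T_algebraMap (ℓ : ℕ) (hℓ : ℓ ≠ 0) (x : OnePoint (ZMod ℓ)) (F : HolH) :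
    h26T ℓ x (algebraMap HolH MerH F)
      = algebraMap HolH MerH (compG (dG ℓ hℓ x) (det_dG_pos ℓ hℓ x) F) := by
  rw [h26T_of_ne ℓ hℓ x, compE_algebraMap]

/-- Constants are fixed. -/
theorem h26T_cM (ℓ : ℕ) (x : OnePoint (ZMod ℓ)) (c : ℂ) : h26T ℓ x (cM c) = cM c := by
  rcases eq_or_ne ℓ 0 with hℓ | hℓ
  · unfold h26T
    rw [dif_pos hℓ]
    rfl
  · show h26T ℓ x (algebraMap HolH MerH (constH c)) = algebraMap HolH MerH (constH c)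
    rw [h26T_algebraMap ℓ hℓ]
    rfl

/-- The matrix identity `δ_x g = g' δ_x'` in `GL(2, ℝ)`. -/
theorem dG_mul_eq (ℓ : ℕ) (hℓ : ℓ ≠ 0) (g g' : SL(2, ℤ)) (x x' : OnePoint (ZMod ℓ))
    (h1 : tA ℓ x * g 0 0 + tB ℓ x * g 1 0 = g' 0 0 * tA ℓ x')
    (h2 : tA ℓ x * g 0 1 + tB ℓ x * g 1 1 = g' 0 0 * tB ℓ x' + g' 0 1 * tD ℓ x')
    (h3 : tD ℓ x * g 1 0 = g' 1 0 * tA ℓ x')
    (h4 : tD ℓ x * g 1 1 = g' 1 0 * tB ℓ x' + g' 1 1 * tD ℓ x') :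
    dG ℓ hℓ x * Matrix.SpecialLinearGroup.mapGL ℝ g
      = Matrix.SpecialLinearGroup.mapGL ℝ g' * dG ℓ hℓ x' := by
  apply Units.ext
  rw [Units.val_mul, Units.val_mul, val_dG, val_dG]
  have e1 : ((tA ℓ x : ℤ) : ℝ) * ((g 0 0 : ℤ) : ℝ) + ((tB ℓ x : ℤ) : ℝ) * ((g 1 0 : ℤ) : ℝ)
      = ((g' 0 0 : ℤ) : ℝ) * ((tA ℓ x' : ℤ) : ℝ) := by exact_mod_cast h1
  have e2 : ((tA ℓ x : ℤ) : ℝ) * ((g 0 1 : ℤ) : ℝ) + ((tB ℓ x : ℤ) : ℝ) * ((g 1 1 : ℤ) : ℝ)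
      = ((g' 0 0 : ℤ) : ℝ) * ((tB ℓ x' : ℤ) : ℝ) + ((g' 0 1 : ℤ) : ℝ) * ((tD ℓ x' : ℤ) : ℝ) := by
    exact_mod_cast h2
  have e3 : ((tD ℓ x : ℤ) : ℝ) * ((g 1 0 : ℤ) : ℝ)
      = ((g' 1 0 : ℤ) : ℝ) * ((tA ℓ x' : ℤ) : ℝ) := by exact_mod_cast h3
  have e4 : ((tD ℓ x : ℤ) : ℝ) * ((g 1 1 : ℤ) : ℝ)
      = ((g' 1 0 : ℤ) : ℝ) * ((tB ℓ x' : ℤ) : ℝ) + ((g' 1 1 : ℤ) : ℝ) * ((tD ℓ x' : ℤ) : ℝ) := by
    exact_mod_cast h4
  ext i j
  fin_cases i <;> fin_cases j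
  · simpa [Matrix.mul_apply, Fin.sum_univ_two] using e1
  · simpa [Matrix.mul_apply, Fin.sum_univ_two] using e2
  · simpa [Matrix.mul_apply, Fin.sum_univ_two] using e3
  · simpa [Matrix.mul_apply, Fin.sum_univ_two] using e4

/-- **(AN1)** the one-index commutation rule. -/
theorem h26_stComm (ℓ : ℕ) (hℓ : ℓ ≠ 0) : StComm ℓ (h26T ℓ) := by
  intro g g' x x' h1 h2 h3 h4 y
  have hmat := dG_mul_eq ℓ hℓ g g' x x' h1 h2 h3 h4
  have key : ((tauE g⁻¹).toRingHom.comp (h26T ℓ x))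
      = (h26T ℓ x').comp (tauE g'⁻¹).toRingHom := by
    apply ringHom_ext_MerH
    intro F
    show tauE g⁻¹ (h26T ℓ x (algebraMap HolH MerH F))
      = h26T ℓ x' (tauE g'⁻¹ (algebraMap HolH MerH F))
    rw [h26T_algebraMap ℓ hℓ, tauE_algebraMap, tauE_algebraMap, h26T_algebraMap ℓ hℓ]
    congr 1
    apply Subtype.ext
    funext z
    show (F : ℍ → ℂ) (dG ℓ hℓ x • ((g⁻¹)⁻¹ • z)) = (F : ℍ → ℂ) ((g'⁻¹)⁻¹ • (dG ℓ hℓ x' • z))
    rw [inv_inv, inv_inv]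
    refine congrArg (F : ℍ → ℂ) ?_
    show dG ℓ hℓ x • (Matrix.SpecialLinearGroup.mapGL ℝ g • z)
      = Matrix.SpecialLinearGroup.mapGL ℝ g' • (dG ℓ hℓ x' • z)
    rw [← mul_smul, ← mul_smul, hmat]
  exact DFunLike.congr_fun key y

/-- `δ_∞ z = ℓ z`. -/
theorem dG_infty_smul (ℓ : ℕ) [NeZero ℓ] (z : ℍ) :
    dG ℓ (NeZero.ne ℓ) OnePoint.infty • z = Fermat.Agent.S23.scaleN ℓ z := by
  apply UpperHalfPlane.ext
  have hA : tA ℓ OnePoint.infty = (ℓ : ℤ) := rfl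
  have hB : tB ℓ OnePoint.infty = 0 := rfl
  have hD : tD ℓ OnePoint.infty = 1 := rfl
  rw [Fermat.Agent.S23.coe_scaleN, UpperHalfPlane.coe_smul_of_det_pos (det_dG_pos ℓ _ _)]
  simp [UpperHalfPlane.num, UpperHalfPlane.denom, val_dG, hA, hB, hD]

/-- `h26T ℓ ∞` is the composition with `z ↦ ℓ z`. -/
theorem h26T_infty (ℓ : ℕ) [NeZero ℓ] (F G : HolH)
    (h : ∀ z : ℍ, (G : ℍ → ℂ) z = (F : ℍ → ℂ) (Fermat.Agent.S23.scaleN ℓ z)) :
    h26T ℓ OnePoint.infty (algebraMap HolH MerH F) = algebraMap HolH MerH G := by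
  rw [h26T_algebraMap ℓ (NeZero.ne ℓ)]
  congr 1
  apply Subtype.ext
  funext z
  rw [compG_apply, dG_infty_smul, h z]

end Fermat.Agent.S42x.Heq.H26
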