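import Mathlib
import Fermat.Agent.S22.HeckeAbs

/-!
# W7 (KH-AN), leaf (AN2b) [REPS]: explicit representatives of `Γ₀(N) / Γ₀(N ℓ)`

For a prime `ℓ ∤ N` there are `h x ∈ Γ₀(N)` (`x ∈ ℙ¹(𝔽_ℓ)`), pairwise incongruent modulo
`Γ₀(ℓ)`, and `g' x ∈ Γ₀(N)` with `α_∞ * h x = g' x * α_x`, where `α_∞ = [ℓ, 0; 0, 1]` and
`α_j = [1, j; 0, ℓ]` are the representatives of the Hecke operator `T_ℓ`.

Explicitly `h ∞ = g' ∞ = 1` and, for `j : ZMod ℓ` with `k = j.val`,
`h j = [a, b; N, k N + ℓ]` (`a (k N + ℓ) - b N = 1`), `g' j = [ℓ a, b - a k; N, 1]`.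
-/

set_option autoImplicit false

open CongruenceSubgroup Fermat.Agent.S22
open scoped MatrixGroups

namespace Fermat.Agent.S42x.Heq.H8

/-- The matrix `[a, b; c, d]` of determinant one. -/
def mkSL (a b c d : ℤ) (h : a * d - b * c = 1) : SL(2, ℤ) :=
  ⟨!![a, b; c, d], by rw [Matrix.det_fin_two_of]; exact h⟩

@[simp] theorem mkSL_00 (a b c d : ℤ) (h : a * d - b * c = 1) : mkSL a b c d h 0 0 = a := rfl
@[simp] theorem mkSL_01 (a b c d : ℤ) (h : a * d - b * c = 1) : mkSL a b c d h 0 1 = b := rfl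
@[simp] theorem mkSL_10 (a b c d : ℤ) (h : a * d - b * c = 1) : mkSL a b c d h 1 0 = c := rfl
@[simp] theorem mkSL_11 (a b c d : ℤ) (h : a * d - b * c = 1) : mkSL a b c d h 1 1 = d := rfl

/-- The lower left entry of `A * B⁻¹`. -/
theorem mul_inv_10 (A B : SL(2, ℤ)) : (A * B⁻¹) 1 0 = A 1 0 * B 1 1 - A 1 1 * B 1 0 := by
  show (A * B⁻¹).1 1 0 = A.1 1 0 * B.1 1 1 - A.1 1 1 * B.1 1 0
  rw [Matrix.SpecialLinearGroup.coe_mul, Matrix.SpecialLinearGroup.coe_inv,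
    Matrix.adjugate_fin_two, Matrix.mul_apply, Fin.sum_univ_two]
  simp only [Matrix.of_apply, Matrix.cons_val', Matrix.cons_val_zero, Matrix.cons_val_one,
    Matrix.cons_val_fin_one]
  ring

theorem one_10 : (1 : SL(2, ℤ)) 1 0 = 0 := rfl
theorem one_11 : (1 : SL(2, ℤ)) 1 1 = 1 := rfl
theorem one_00 : (1 : SL(2, ℤ)) 0 0 = 1 := rfl
theorem one_01 : (1 : SL(2, ℤ)) 0 1 = 0 := rfl

section

variable (N ℓ : ℕ)

/-- Bezout coefficients for `k N + ℓ` and `N`. -/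
theorem exists_bezout_rep (hℓ : ℓ.Prime) (hN : ¬ ℓ ∣ N) (k : ℤ) :
    ∃ a b : ℤ, a * (k * N + ℓ) - b * N = 1 := by
  have h1 : IsCoprime (ℓ : ℤ) (N : ℤ) := by
    rw [Int.isCoprime_iff_gcd_eq_one, Int.gcd_natCast_natCast]
    exact (Nat.Prime.coprime_iff_not_dvd hℓ).mpr hN
  have h2 : IsCoprime ((ℓ : ℤ) + k * N) (N : ℤ) := h1.add_mul_right_left k
  obtain ⟨a, b, hab⟩ := h2
  refine ⟨a, -b, ?_⟩
  linear_combination hab

end

/-- **(AN2b) [REPS]** Explicit representatives of `Γ₀(N) / (Γ₀(N) ∩ α_∞⁻¹ Γ₀(N) α_∞)`. -/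
theorem exists_reps (N ℓ : ℕ) (hℓ : ℓ.Prime) (hN : ¬ ℓ ∣ N) :
    ∃ h g' : OnePoint (ZMod ℓ) → SL(2, ℤ),
      (∀ x, h x ∈ Gamma0 N) ∧ (∀ x, g' x ∈ Gamma0 N) ∧
      (∀ x y, x ≠ y → h x * (h y)⁻¹ ∉ Gamma0 ℓ) ∧
      (∀ x y, h x * (h y)⁻¹ ∈ Gamma0 (N * ℓ) → x = y) ∧
      h OnePoint.infty = 1 ∧ g' OnePoint.infty = 1 ∧
      ∀ x,
        tA ℓ OnePoint.infty * h x 0 0 + tB ℓ OnePoint.infty * h x 1 0 = g' x 0 0 * tA ℓ x ∧
        tA ℓ OnePoint.infty * h x 0 1 + tB ℓ OnePoint.infty * h x 1 1 =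
          g' x 0 0 * tB ℓ x + g' x 0 1 * tD ℓ x ∧
        tD ℓ OnePoint.infty * h x 1 0 = g' x 1 0 * tA ℓ x ∧
        tD ℓ OnePoint.infty * h x 1 1 = g' x 1 0 * tB ℓ x + g' x 1 1 * tD ℓ x := by
  have : Fact ℓ.Prime := ⟨hℓ⟩
  have : NeZero ℓ := ⟨hℓ.ne_zero⟩
  choose a b hab using fun j : ZMod ℓ => exists_bezout_rep N ℓ hℓ hN (j.val : ℤ)
  -- the representatives
  have hdet' : ∀ j : ZMod ℓ, (ℓ : ℤ) * a j * 1 - (b j - a j * (j.val : ℤ)) * N = 1 := by
    intro j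
    linear_combination hab j
  let h : OnePoint (ZMod ℓ) → SL(2, ℤ) := fun x =>
    Option.rec (1 : SL(2, ℤ))
      (fun j => mkSL (a j) (b j) N ((j.val : ℤ) * N + ℓ) (hab j)) x
  let g' : OnePoint (ZMod ℓ) → SL(2, ℤ) := fun x =>
    Option.rec (1 : SL(2, ℤ))
      (fun j => mkSL ((ℓ : ℤ) * a j) (b j - a j * (j.val : ℤ)) N 1 (hdet' j)) x
  have hh_inf : h OnePoint.infty = 1 := rfl
  have hh_coe : ∀ j : ZMod ℓ, h (j : OnePoint (ZMod ℓ)) =
      mkSL (a j) (b j) N ((j.val : ℤ) * N + ℓ) (hab j) := fun _ => rfl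
  have hg_inf : g' OnePoint.infty = 1 := rfl
  have hg_coe : ∀ j : ZMod ℓ, g' (j : OnePoint (ZMod ℓ)) =
      mkSL ((ℓ : ℤ) * a j) (b j - a j * (j.val : ℤ)) N 1 (hdet' j) := fun _ => rfl
  have hNN : ((N : ℤ) : ZMod N) = 0 := by
    rw [Int.cast_natCast, ZMod.natCast_self]
  have hNℓ : ((N : ℤ) : ZMod ℓ) ≠ 0 := by
    rw [Int.cast_natCast, Ne, ZMod.natCast_eq_zero_iff]
    exact hN
  -- the lower left entries of `h x * (h y)⁻¹` are not divisible by `ℓ`
  have hdist : ∀ x y, x ≠ y → h x * (h y)⁻¹ ∉ Gamma0 ℓ := by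
    intro x y hxy hmem
    rw [Gamma0_mem, mul_inv_10] at hmem
    induction x using OnePoint.rec with
    | infty =>
      induction y using OnePoint.rec with
      | infty => exact hxy rfl
      | coe j =>
        rw [hh_inf, hh_coe, one_10, one_11, mkSL_10, mkSL_11] at hmem
        apply hNℓ
        have : ((0 * ((j.val : ℤ) * N + ℓ) - 1 * (N : ℤ) : ℤ) : ZMod ℓ) = -((N : ℤ) : ZMod ℓ) := by
          push_cast
          ring
        rw [this, neg_eq_zero] at hmem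
        exact hmem
    | coe i =>
      induction y using OnePoint.rec with
      | infty =>
        rw [hh_inf, hh_coe, one_10, one_11, mkSL_10, mkSL_11] at hmem
        apply hNℓ
        have : (((N : ℤ) * 1 - ((i.val : ℤ) * N + ℓ) * 0 : ℤ) : ZMod ℓ) = ((N : ℤ) : ZMod ℓ) := by
          push_cast
          ring
        rw [this] at hmem
        exact hmem
      | coe j =>
        rw [hh_coe, hh_coe, mkSL_10, mkSL_11, mkSL_10, mkSL_11] at hmem
        have h1 : (((N : ℤ) * ((j.val : ℤ) * N + ℓ) - ((i.val : ℤ) * N + ℓ) * N : ℤ) : ZMod ℓ) =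
            ((N : ℤ) : ZMod ℓ) * ((N : ℤ) : ZMod ℓ) * (j - i) := by
          push_cast
          rw [ZMod.natCast_zmod_val, ZMod.natCast_zmod_val, ZMod.natCast_self]
          ring
        rw [h1] at hmem
        rcases mul_eq_zero.mp hmem with h2 | h2
        · rcases mul_eq_zero.mp h2 with h3 | h3
          · exact hNℓ h3
          · exact hNℓ h3
        · apply hxy
          rw [sub_eq_zero] at h2
          rw [h2]
  refine ⟨h, g', ?_, ?_, hdist, ?_, hh_inf, hg_inf, ?_⟩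
  · intro x
    induction x using OnePoint.rec with
    | infty => rw [hh_inf]; exact one_mem _
    | coe j =>
      rw [hh_coe, Gamma0_mem, mkSL_10]
      exact hNN
  · intro x
    induction x using OnePoint.rec with
    | infty => rw [hg_inf]; exact one_mem _
    | coe j =>
      rw [hg_coe, Gamma0_mem, mkSL_10]
      exact hNN
  · intro x y hmem
    by_contra hxy
    apply hdist x y hxy
    rw [Gamma0_mem] at hmem ⊢
    have h1 : (((h x * (h y)⁻¹) 1 0 : ℤ) : ZMod (N * ℓ)) = 0 := hmem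
    rw [ZMod.intCast_zmod_eq_zero_iff_dvd] at h1 ⊢
    exact dvd_trans (by exact_mod_cast Dvd.intro_left N rfl) h1
  · intro x
    induction x using OnePoint.rec with
    | infty =>
      rw [hh_inf, hg_inf, one_00, one_01, one_10, one_11]
      simp only [tA_infty, tB_infty, tD_infty]
      refine ⟨by ring, by ring, by ring, by ring⟩
    | coe j =>
      rw [hh_coe, hg_coe]
      simp only [mkSL_00, mkSL_01, mkSL_10, mkSL_11, tA_infty, tB_infty, tA_coe, tB_coe,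
        tD_infty, tD_coe]
      refine ⟨by ring, by ring, by ring, by ring⟩

end Fermat.Agent.S42x.Heq.H8
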