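import Fermat.Agent.S42x.Heq.H26_NormRel
import Fermat.Agent.S42x.Heq.H26_TauG
import Fermat.Agent.S42x.Heq.H8_Reps
import Fermat.Agent.S42x.Heq.H3_Level

/-!
# W7 (KH-AN) (helper26): `StHeckeAn N p e ζ`, hypothesis-free

`stHeckeAn N p e ζ : StHeckeAn N p e ζ` (helper23's Prop VERBATIM) for every level `N ≥ 1`,
every natural number `p`, every embedding `e : ℚ̄ →+* ℂ` and every `ζ : ℂ`:
if `y ^ p = iota e f` and `y` has the multiplier `ζ ^ b`, then `y' := ∏ x, y ∘ δ_x` is a `p`-th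
root of `iota e (Norm_α (β f))` with the multiplier `ζ ^ b'`.

Inputs: helper21's `h21_stHeckeAn_of` (AN3), helper9's `h9_iota_norm_conj`, helper3's
`h3_level_beta` (AN2a), helper8's `exists_reps` (AN2b), and the translation operators `h26T`.
-/

set_option autoImplicit false
set_option linter.style.haveILetI false
set_option linter.unusedSectionVars false
set_option synthInstance.maxHeartbeats 400000
set_option maxHeartbeats 1000000

open IntermediateField ModularCurve ModularCurve.Period AlgebraicCurve CongruenceSubgroup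
open Fermat.Agent.S24.Mer Fermat.Agent.S24.Real Fermat.Agent.S22 Fermat.Agent.S16x.Low.H5
open Fermat.Agent.S42x.Kum.H12
open scoped MatrixGroups

noncomputable section

namespace Fermat.Agent.S42x.Heq.H26

/-- **(AN2b)** helper8's representatives. -/
theorem stReps (N ℓ : ℕ) (hℓ : ℓ.Prime) (hN : ¬ ℓ ∣ N) : StReps N ℓ := by
  obtain ⟨h, g', hh, hg', -, hdist, -, -, heq⟩ :=
    Fermat.Agent.S42x.Heq.H8.exists_reps N ℓ hℓ hN
  exact ⟨h, g', hh, hg', hdist, heq⟩

/-- **(AN2a)** for the translation operators `h26T`. -/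
theorem h26_beta (N ℓ : ℕ) [NeZero N] [NeZero ℓ] (e : AlgebraicClosure ℚ →+* ℂ)
    (f : modularFunctionFieldBar N) :
    iota e (heckeBetaBar (AlgebraicClosure ℚ) N ℓ f : FK (AlgebraicClosure ℚ) (N * ℓ))
      = h26T ℓ OnePoint.infty (iota e (f : FK (AlgebraicClosure ℚ) N)) :=
  Fermat.Agent.S42x.Heq.H3.h3_level_beta e N ℓ (h26T ℓ OnePoint.infty) (h26T_infty ℓ) f

/-- **(AN2)** the norm formula. -/
theorem h26_an2 (N ℓ : ℕ) [NeZero N] [NeZero ℓ] (hℓ : ℓ.Prime) (hℓN : ¬ ℓ ∣ N)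
    (e : AlgebraicClosure ℚ →+* ℂ) (f : modularFunctionFieldBar N) :
    letI := algebraAlong (heckeAlphaBar (AlgebraicClosure ℚ) N ℓ)
    ∏ x, h26T ℓ x (iota e f) = iota e (Algebra.norm (modularFunctionFieldBar N)
      (heckeBetaBar (AlgebraicClosure ℚ) N ℓ f)) :=
  h26_an2_of N ℓ hℓ hℓN e (h26T ℓ) (h26_stComm ℓ hℓ.ne_zero) (h26_beta N ℓ e)
    (stReps N ℓ hℓ hℓN) f

/-- **(KH-AN)**, hypothesis-free. -/
theorem stHeckeAn (N p : ℕ) [NeZero N] (e : AlgebraicClosure ℚ →+* ℂ) (ζ : ℂ) :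
    Fermat.Agent.S42x.Heq.H23.StHeckeAn N p e ζ :=
  h26_stHeckeAn_of N p e ζ h26T h26T_cM (fun ℓ hℓ => h26_stComm ℓ hℓ.ne_zero)
    (fun ℓ _ _ f => h26_beta N ℓ e f) (fun ℓ hℓ hℓN => stReps N ℓ hℓ hℓN)

end Fermat.Agent.S42x.Heq.H26
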