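import Fermat.Agent.S42x.Kum.H12_KumGen
import Fermat.Agent.S16x.Low.H5_PerHecke

/-!
# W7 (S42/S29), package [HEQ], leaf (AN1) (helper12): the translation operators of `T_ℓ` on `MerH`

For integers `a, d > 0` and `b`, the affine map `z ↦ (a z + b) / d` preserves the upper half
plane; composition with it is an injective ring endomorphism `tauD a b d` of the ring `HolH` of
holomorphic functions, which extends to a ring endomorphism `tauDE a b d` of `MerH`.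

* `dAct`, `coe_dAct`, `dAct_smul` (the coset identity `α g = g' α'` on `ℍ`);
* `tauD`, `tauD_apply`, `tauD_injective`, `tauD_constH`, `tauD_tau`;
* `tauDE`, `tauDE_algebraMap`, `tauDE_cM`, `tauDE_injective`, `tauDE_tauE`;
* `tauT ℓ x := tauDE (tA ℓ x) (tB ℓ x) (tD ℓ x)` and `tauT_tauE`, the commutation rule with
  `tauE` given by a coset datum (helper5's `CosetData`).
-/

set_option autoImplicit false
set_option synthInstance.maxHeartbeats 400000
set_option maxHeartbeats 1000000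

open UpperHalfPlane CongruenceSubgroup
open Fermat.Agent.S24.Mer Fermat.Agent.S22 Fermat.Agent.S42x.Kum.H12
open scoped Manifold MatrixGroups

noncomputable section

namespace Fermat.Agent.S42x.Heq.H12

/-! ### The affine maps on the upper half plane -/

/-- The point `(a z + b) / d` of the upper half plane (`a, d > 0`). -/
def dAct (a b d : ℤ) (ha : 0 < a) (hd : 0 < d) (z : ℍ) : ℍ :=
  ⟨affS a b d z, affS_mem_UHP ha hd b (coe_mem_UHP z)⟩

theorem coe_dAct_affS (a b d : ℤ) (ha : 0 < a) (hd : 0 < d) (z : ℍ) :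
    ((dAct a b d ha hd z : ℍ) : ℂ) = affS a b d z := rfl

theorem coe_dAct (a b d : ℤ) (ha : 0 < a) (hd : 0 < d) (z : ℍ) :
    ((dAct a b d ha hd z : ℍ) : ℂ) = ((a : ℂ) * z + b) / d := by
  rw [coe_dAct_affS, affS_apply]

/-- The coset identity `α g = g' α'` on the upper half plane. -/
theorem dAct_smul {a b d a' b' d' : ℤ} (ha : 0 < a) (hd : 0 < d) (ha' : 0 < a') (hd' : 0 < d')
    {g g' : SL(2, ℤ)}
    (h00 : a * g 0 0 + b * g 1 0 = g' 0 0 * a')
    (h01 : a * g 0 1 + b * g 1 1 = g' 0 0 * b' + g' 0 1 * d')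
    (h10 : d * g 1 0 = g' 1 0 * a')
    (h11 : d * g 1 1 = g' 1 0 * b' + g' 1 1 * d') (z : ℍ) :
    dAct a b d ha hd (g • z) = g' • dAct a' b' d' ha' hd' z := by
  apply UpperHalfPlane.ext
  rw [coe_smul_eq_mobS, coe_dAct_affS, coe_dAct_affS, coe_smul_eq_mobS]
  exact affS_mobS ha hd ha' hd' h00 h01 h10 h11 (coe_mem_UHP z)

/-- `z ↦ (d z - b) / a` is a right inverse of `z ↦ (a z + b) / d`. -/
theorem dAct_dAct_inv (a b d : ℤ) (ha : 0 < a) (hd : 0 < d) (z : ℍ) :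
    dAct a b d ha hd (dAct d (-b) a hd ha z) = z := by
  apply UpperHalfPlane.ext
  rw [coe_dAct, coe_dAct]
  have ha0 : (a : ℂ) ≠ 0 := by exact_mod_cast ha.ne'
  have hd0 : (d : ℂ) ≠ 0 := by exact_mod_cast hd.ne'
  push_cast
  field_simp
  ring

theorem dAct_surjective (a b d : ℤ) (ha : 0 < a) (hd : 0 < d) :
    Function.Surjective (dAct a b d ha hd) :=
  fun z => ⟨_, dAct_dAct_inv a b d ha hd z⟩

/-- Composition with `z ↦ (a z + b) / d` preserves holomorphy. -/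
theorem mdiff_comp_dAct {f : ℍ → ℂ} (hf : MDifferentiable 𝓘(ℂ) 𝓘(ℂ) f)
    (a b d : ℤ) (ha : 0 < a) (hd : 0 < d) :
    MDifferentiable 𝓘(ℂ) 𝓘(ℂ) (fun z : ℍ => f (dAct a b d ha hd z)) := by
  rw [UpperHalfPlane.mdifferentiable_iff] at hf ⊢
  have hmaps : Set.MapsTo (fun w : ℂ => ((a : ℂ) * w + b) / d) {z : ℂ | 0 < z.im}
      {z : ℂ | 0 < z.im} := by
    intro w hw
    have h := affS_mem_UHP ha hd b (z := w) hw
    rw [affS_apply] at h
    exact h
  have hdiff : Differentiable ℂ (fun w : ℂ => ((a : ℂ) * w + b) / d) :=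
    ((differentiable_id.const_mul (a : ℂ)).add_const (b : ℂ)).div_const (d : ℂ)
  have hcomp : DifferentiableOn ℂ ((f ∘ ofComplex) ∘ fun w : ℂ => ((a : ℂ) * w + b) / d)
      {z : ℂ | 0 < z.im} :=
    hf.comp hdiff.differentiableOn hmaps
  refine hcomp.congr fun w hw => ?_
  have hw' : 0 < (((a : ℂ) * w + b) / d).im := hmaps hw
  simp only [Function.comp_apply]
  congr 1
  apply UpperHalfPlane.ext
  rw [coe_dAct, ofComplex_apply_of_im_pos hw, ofComplex_apply_of_im_pos hw']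

/-! ### The operators on holomorphic functions -/

/-- `tauD a b d f = f ∘ (z ↦ (a z + b) / d)` on holomorphic functions. -/
def tauD (a b d : ℤ) (ha : 0 < a) (hd : 0 < d) : HolH →+* HolH where
  toFun f := ⟨fun z => (f : ℍ → ℂ) (dAct a b d ha hd z), mdiff_comp_dAct f.2 a b d ha hd⟩
  map_one' := rfl
  map_mul' _ _ := rfl
  map_zero' := rfl
  map_add' _ _ := rfl

@[simp] theorem tauD_apply (a b d : ℤ) (ha : 0 < a) (hd : 0 < d) (f : HolH) (z : ℍ) :
    (tauD a b d ha hd f : ℍ → ℂ) z = (f : ℍ → ℂ) (dAct a b d ha hd z) := rfl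

theorem tauD_constH (a b d : ℤ) (ha : 0 < a) (hd : 0 < d) (c : ℂ) :
    tauD a b d ha hd (constH c) = constH c := rfl

theorem tauD_injective (a b d : ℤ) (ha : 0 < a) (hd : 0 < d) :
    Function.Injective (tauD a b d ha hd) := by
  intro f g hfg
  apply Subtype.ext
  funext z
  obtain ⟨w, rfl⟩ := dAct_surjective a b d ha hd z
  exact congrFun (congrArg Subtype.val hfg) w

/-- The commutation rule of `tauD` and `tau` given by a coset identity `α g = g' α'`. -/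
theorem tauD_tau {a b d a' b' d' : ℤ} (ha : 0 < a) (hd : 0 < d) (ha' : 0 < a') (hd' : 0 < d')
    {g g' : SL(2, ℤ)}
    (h00 : a * g 0 0 + b * g 1 0 = g' 0 0 * a')
    (h01 : a * g 0 1 + b * g 1 1 = g' 0 0 * b' + g' 0 1 * d')
    (h10 : d * g 1 0 = g' 1 0 * a')
    (h11 : d * g 1 1 = g' 1 0 * b' + g' 1 1 * d') (f : HolH) :
    tau g⁻¹ (tauD a b d ha hd f) = tauD a' b' d' ha' hd' (tau g'⁻¹ f) := by
  apply Subtype.ext
  funext z
  show (f : ℍ → ℂ) (dAct a b d ha hd (g⁻¹⁻¹ • z)) = (f : ℍ → ℂ) (g'⁻¹⁻¹ • dAct a' b' d' ha' hd' z)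
  rw [inv_inv, inv_inv, dAct_smul ha hd ha' hd' h00 h01 h10 h11]

/-! ### The operators on meromorphic functions -/

theorem algebraMap_comp_tauD_injective (a b d : ℤ) (ha : 0 < a) (hd : 0 < d) :
    Function.Injective ((algebraMap HolH MerH).comp (tauD a b d ha hd)) :=
  algebraMap_MerH_injective.comp (tauD_injective a b d ha hd)

/-- The extension of `tauD a b d` to the field of meromorphic functions. -/
def tauDE (a b d : ℤ) (ha : 0 < a) (hd : 0 < d) : MerH →+* MerH :=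
  IsFractionRing.lift (A := HolH) (K := MerH)
    (g := (algebraMap HolH MerH).comp (tauD a b d ha hd))
    (algebraMap_comp_tauD_injective a b d ha hd)

@[simp] theorem tauDE_algebraMap (a b d : ℤ) (ha : 0 < a) (hd : 0 < d) (f : HolH) :
    tauDE a b d ha hd (algebraMap HolH MerH f) = algebraMap HolH MerH (tauD a b d ha hd f) :=
  IsFractionRing.lift_algebraMap (algebraMap_comp_tauD_injective a b d ha hd) f

theorem tauDE_cM (a b d : ℤ) (ha : 0 < a) (hd : 0 < d) (c : ℂ) :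
    tauDE a b d ha hd (cM c) = cM c := by
  rw [cM_apply, tauDE_algebraMap, tauD_constH]

theorem tauDE_injective (a b d : ℤ) (ha : 0 < a) (hd : 0 < d) :
    Function.Injective (tauDE a b d ha hd) :=
  (tauDE a b d ha hd).injective

/-- The commutation rule of `tauDE` and `tauE` given by a coset identity `α g = g' α'`. -/
theorem tauDE_tauE {a b d a' b' d' : ℤ} (ha : 0 < a) (hd : 0 < d) (ha' : 0 < a') (hd' : 0 < d')
    {g g' : SL(2, ℤ)}
    (h00 : a * g 0 0 + b * g 1 0 = g' 0 0 * a')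
    (h01 : a * g 0 1 + b * g 1 1 = g' 0 0 * b' + g' 0 1 * d')
    (h10 : d * g 1 0 = g' 1 0 * a')
    (h11 : d * g 1 1 = g' 1 0 * b' + g' 1 1 * d') (y : MerH) :
    tauE g⁻¹ (tauDE a b d ha hd y) = tauDE a' b' d' ha' hd' (tauE g'⁻¹ y) := by
  obtain ⟨u, v, hv, rfl⟩ := IsFractionRing.div_surjective (A := HolH) y
  simp only [map_div₀, tauDE_algebraMap, tauE_algebraMap]
  rw [tauD_tau ha hd ha' hd' h00 h01 h10 h11 u, tauD_tau ha hd ha' hd' h00 h01 h10 h11 v]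

/-! ### The `ℓ + 1` operators of `T_ℓ` -/

/-- The translation operator `y ↦ y ∘ α_x` for the representative
`α_x = [tA ℓ x, tB ℓ x; 0, tD ℓ x]` of `T_ℓ` (`α_∞ = [ℓ, 0; 0, 1]`, `α_j = [1, j; 0, ℓ]`). -/
def tauT (ℓ : ℕ) [NeZero ℓ] (x : OnePoint (ZMod ℓ)) : MerH →+* MerH :=
  tauDE (tA ℓ x) (tB ℓ x) (tD ℓ x) (tA_pos (Nat.pos_of_ne_zero (NeZero.ne ℓ)) x)
    (tD_pos (Nat.pos_of_ne_zero (NeZero.ne ℓ)) x)

theorem tauT_def (ℓ : ℕ) [NeZero ℓ] (x : OnePoint (ZMod ℓ)) :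
    tauT ℓ x = tauDE (tA ℓ x) (tB ℓ x) (tD ℓ x) (tA_pos (Nat.pos_of_ne_zero (NeZero.ne ℓ)) x)
      (tD_pos (Nat.pos_of_ne_zero (NeZero.ne ℓ)) x) := rfl

theorem tauT_algebraMap (ℓ : ℕ) [NeZero ℓ] (x : OnePoint (ZMod ℓ)) (f : HolH) :
    tauT ℓ x (algebraMap HolH MerH f) = algebraMap HolH MerH
      (tauD (tA ℓ x) (tB ℓ x) (tD ℓ x) (tA_pos (Nat.pos_of_ne_zero (NeZero.ne ℓ)) x)
        (tD_pos (Nat.pos_of_ne_zero (NeZero.ne ℓ)) x) f) :=
  tauDE_algebraMap _ _ _ _ _ f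

theorem tauT_cM (ℓ : ℕ) [NeZero ℓ] (x : OnePoint (ZMod ℓ)) (c : ℂ) : tauT ℓ x (cM c) = cM c :=
  tauDE_cM _ _ _ _ _ c

theorem tauT_injective (ℓ : ℕ) [NeZero ℓ] (x : OnePoint (ZMod ℓ)) :
    Function.Injective (tauT ℓ x) :=
  (tauT ℓ x).injective

/-- **(AN1)** The commutation rule of the translation operators of `T_ℓ` with `tauE`, for a
coset datum `α_x g = g'_x α_{σ x}`:
`(y ∘ α_x) ∘ g = (y ∘ g'_x) ∘ α_{σ x}`. -/
theorem tauT_tauE (ℓ : ℕ) [NeZero ℓ] {N : ℕ} {g : SL(2, ℤ)}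
    {σ : Equiv.Perm (OnePoint (ZMod ℓ))} {g' : OnePoint (ZMod ℓ) → SL(2, ℤ)}
    (h : Fermat.Agent.S16x.Low.H5.CosetData (tA ℓ) (tB ℓ) (tD ℓ) N g σ g')
    (x : OnePoint (ZMod ℓ)) (y : MerH) :
    tauE g⁻¹ (tauT ℓ x y) = tauT ℓ (σ x) (tauE (g' x)⁻¹ y) := by
  obtain ⟨h00, h01, h10, h11⟩ := h.2 x
  exact tauDE_tauE _ _ _ _ h00 h01 h10 h11 y

/-- The same rule for invariant functions: if `y` is invariant under all `g'_x` then
`(y ∘ α_x) ∘ g = y ∘ α_{σ x}`. -/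
theorem tauT_tauE_of_inv (ℓ : ℕ) [NeZero ℓ] {N : ℕ} {g : SL(2, ℤ)}
    {σ : Equiv.Perm (OnePoint (ZMod ℓ))} {g' : OnePoint (ZMod ℓ) → SL(2, ℤ)}
    (h : Fermat.Agent.S16x.Low.H5.CosetData (tA ℓ) (tB ℓ) (tD ℓ) N g σ g')
    (y : MerH) (hy : ∀ γ : SL(2, ℤ), γ ∈ Gamma0 N → tauE γ y = y) (x : OnePoint (ZMod ℓ)) :
    tauE g⁻¹ (tauT ℓ x y) = tauT ℓ (σ x) y := by
  rw [tauT_tauE ℓ h x y, hy _ (inv_mem (h.1 x))]

end Fermat.Agent.S42x.Heq.H12
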