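import Fermat.Agent.S42x.Heq.H23_Asm

/-!
# W7 (KH-AN), part (AN3) (helper21): the multiplier of `∏ y ∘ δ_i`

Abstract setting: a finite family `tT x : MerH →+* MerH` of ring endomorphisms fixing the
constants (in the application `tT x y = y ∘ δ_x`, `δ_x = [a_x, b_x; 0, d_x]` the standard
representatives of the Hecke operator `T_ℓ`) which satisfies the commutation rule
`tauE g⁻¹ (tT x y) = tT (σ x) (tauE (g' x)⁻¹ y)` for every coset datum `δ_x g = g'_x δ_{σ x}`.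

* `h21_prod_multiplier` : if `y` has the multiplier `ζ ^ b` under `Γ₀(N)` then `∏ x, tT x y` has
  the multiplier `ζ ^ b'`, where `b'` is given by the coset formula;
* `h21_stHeckeAn_of` : **(KH-AN)** `= StHeckeAn N p e ζ` (helper23's Prop, no hypothesis on `p`,
  `ζ`) from such a family and the norm formula **(AN2)**
  `∏ x, tT ℓ x (iota e f) = iota e (Norm_α (β f))`.
-/

set_option autoImplicit false
set_option linter.style.haveILetI false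
set_option linter.unusedSectionVars false
set_option synthInstance.maxHeartbeats 400000
set_option maxHeartbeats 1000000

open IntermediateField ModularCurve ModularCurve.Period AlgebraicCurve CongruenceSubgroup
open Fermat.Agent.S24.Mer Fermat.Agent.S22 Fermat.Agent.S16x.Low.H5
open Fermat.Agent.S42x.Kum.H12
open scoped MatrixGroups

noncomputable section

namespace Fermat.Agent.S42x.Heq.H21

/-- `∏ ζ ^ n_i = ζ ^ ∑ n_i` for `ζ ≠ 0`. -/
theorem h21_prod_zpow {ι : Type*} (s : Finset ι) (ζ : ℂ) (hζ : ζ ≠ 0) (n : ι → ℤ) :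
    ∏ i ∈ s, ζ ^ n i = ζ ^ ∑ i ∈ s, n i := by
  classical
  induction s using Finset.induction_on with
  | empty => simp
  | insert a s ha ih => rw [Finset.prod_insert ha, Finset.sum_insert ha, ih, zpow_add₀ hζ]

section Abstract

variable {N : ℕ} {ι : Type} [Fintype ι] (aa bb dd : ι → ℤ)
  (tT : ι → (MerH →+* MerH))

/-- **(AN3)** the multiplier of the product `∏ x, tT x y`. -/
theorem h21_prod_multiplier (hconst : ∀ x c, tT x (cM c) = cM c)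
    (hTT : ∀ (g : SL(2, ℤ)) (σ : Equiv.Perm ι) (g' : ι → SL(2, ℤ)),
      CosetData aa bb dd N g σ g' →
        ∀ x y, tauE g⁻¹ (tT x y) = tT (σ x) (tauE (g' x)⁻¹ y))
    (hex : ∀ γ : Gamma0 N, ∃ (σ : Equiv.Perm ι) (γ' : ι → SL(2, ℤ)),
      CosetData aa bb dd N (γ : SL(2, ℤ)) σ γ')
    (ζ : ℂ) (hζ : ζ ≠ 0) (y : MerH) (b b' : Additive (Gamma0 N) →+ ℤ)
    (hy : ∀ γ : Gamma0 N, tauE (γ : SL(2, ℤ)) y = cM (ζ ^ (b (Additive.ofMul γ))) * y)
    (hb' : ∀ (γ : Gamma0 N) (σ : Equiv.Perm ι) (γ' : ι → SL(2, ℤ))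
      (h : CosetData aa bb dd N (γ : SL(2, ℤ)) σ γ'),
      ∑ i, b (Additive.ofMul (⟨γ' i, h.1 i⟩ : Gamma0 N)) = b' (Additive.ofMul γ))
    (γ : Gamma0 N) :
    tauE (γ : SL(2, ℤ)) (∏ x, tT x y) = cM (ζ ^ (b' (Additive.ofMul γ))) * ∏ x, tT x y := by
  obtain ⟨σ, g', h⟩ := hex γ⁻¹
  have hcoe : ((γ⁻¹ : Gamma0 N) : SL(2, ℤ))⁻¹ = (γ : SL(2, ℤ)) := by
    rw [Subgroup.coe_inv, inv_inv]
  have key : ∀ x, tauE (γ : SL(2, ℤ)) (tT x y) =
      cM (ζ ^ (-b (Additive.ofMul (⟨g' x, h.1 x⟩ : Gamma0 N)))) * tT (σ x) y := by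
    intro x
    have h1 := hTT _ σ g' h x y
    rw [hcoe] at h1
    have h2 := hy (⟨g' x, h.1 x⟩ : Gamma0 N)⁻¹
    have h3 : (((⟨g' x, h.1 x⟩ : Gamma0 N)⁻¹ : Gamma0 N) : SL(2, ℤ)) = (g' x)⁻¹ := by
      rw [Subgroup.coe_inv]
    rw [h3, ofMul_inv, map_neg] at h2
    rw [h1, h2, map_mul, hconst]
  have hsum : ∑ x, -b (Additive.ofMul (⟨g' x, h.1 x⟩ : Gamma0 N)) = b' (Additive.ofMul γ) := by
    rw [Finset.sum_neg_distrib, hb' γ⁻¹ σ g' h, ofMul_inv, map_neg, neg_neg]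
  rw [map_prod]
  simp only [key]
  rw [Finset.prod_mul_distrib, ← map_prod, h21_prod_zpow _ ζ hζ, hsum,
    Equiv.prod_comp σ (fun x => tT x y)]

theorem h21_prod_pow (y : MerH) (p : ℕ) :
    (∏ x, tT x y) ^ p = ∏ x, tT x (y ^ p) := by
  rw [← Finset.prod_pow]
  exact Finset.prod_congr rfl fun x _ => (map_pow (tT x) y p).symm

/-- The multiplier statement without any hypothesis on `ζ`. -/
theorem h21_prod_multiplier' [Nonempty ι] (hconst : ∀ x c, tT x (cM c) = cM c)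
    (hTT : ∀ (g : SL(2, ℤ)) (σ : Equiv.Perm ι) (g' : ι → SL(2, ℤ)),
      CosetData aa bb dd N g σ g' →
        ∀ x y, tauE g⁻¹ (tT x y) = tT (σ x) (tauE (g' x)⁻¹ y))
    (hex : ∀ γ : Gamma0 N, ∃ (σ : Equiv.Perm ι) (γ' : ι → SL(2, ℤ)),
      CosetData aa bb dd N (γ : SL(2, ℤ)) σ γ')
    (ζ : ℂ) (y : MerH) (b b' : Additive (Gamma0 N) →+ ℤ)
    (hy : ∀ γ : Gamma0 N, tauE (γ : SL(2, ℤ)) y = cM (ζ ^ (b (Additive.ofMul γ))) * y)
    (hb' : ∀ (γ : Gamma0 N) (σ : Equiv.Perm ι) (γ' : ι → SL(2, ℤ))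
      (h : CosetData aa bb dd N (γ : SL(2, ℤ)) σ γ'),
      ∑ i, b (Additive.ofMul (⟨γ' i, h.1 i⟩ : Gamma0 N)) = b' (Additive.ofMul γ))
    (γ : Gamma0 N) :
    tauE (γ : SL(2, ℤ)) (∏ x, tT x y) = cM (ζ ^ (b' (Additive.ofMul γ))) * ∏ x, tT x y := by
  by_cases hζ : ζ = 0
  · by_cases hy0 : y = 0
    · have h0 : (∏ x, tT x y) = 0 := by
        obtain ⟨x₀⟩ := (inferInstance : Nonempty ι)
        exact Finset.prod_eq_zero (Finset.mem_univ x₀) (by rw [hy0, map_zero])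
      rw [h0, map_zero, mul_zero]
    · -- `b = 0`
      have hb0 : ∀ δ : Gamma0 N, b (Additive.ofMul δ) = 0 := by
        intro δ
        by_contra hne
        have h1 := hy δ
        rw [hζ, zero_zpow _ hne, map_zero, zero_mul] at h1
        exact hy0 ((map_eq_zero_iff (tauE (δ : SL(2, ℤ))) (tauE (δ : SL(2, ℤ))).injective).mp h1)
      have hy1 : ∀ δ : Gamma0 N,
          tauE (δ : SL(2, ℤ)) y = cM ((1 : ℂ) ^ (b (Additive.ofMul δ))) * y := by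
        intro δ
        have h1 := hy δ
        rw [hb0 δ, zpow_zero] at h1
        rw [one_zpow]
        exact h1
      have hmain := h21_prod_multiplier aa bb dd tT hconst hTT hex 1 one_ne_zero y b b' hy1 hb' γ
      obtain ⟨σ, g', h⟩ := hex γ
      have hb'0 : b' (Additive.ofMul γ) = 0 := by
        rw [← hb' γ σ g' h]
        exact Finset.sum_eq_zero fun i _ => hb0 _
      rw [hmain, hb'0, zpow_zero, zpow_zero]
  · exact h21_prod_multiplier aa bb dd tT hconst hTT hex ζ hζ y b b' hy hb' γ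

end Abstract

/-- **(KH-AN)** from the translation operators **(AN1)** and the norm formula **(AN2)**:
`StHeckeAn N p e ζ` (no hypothesis on `p`, `ζ`). -/
theorem h21_stHeckeAn_of (N p : ℕ) [NeZero N] (e : AlgebraicClosure ℚ →+* ℂ) (ζ : ℂ)
    (tT : ∀ ℓ : ℕ, OnePoint (ZMod ℓ) → (MerH →+* MerH))
    (hconst : ∀ ℓ x c, tT ℓ x (cM c) = cM c)
    (hTT : ∀ (ℓ : ℕ) [Fact ℓ.Prime] (g : SL(2, ℤ)) (σ : Equiv.Perm (OnePoint (ZMod ℓ)))
      (g' : OnePoint (ZMod ℓ) → SL(2, ℤ)), CosetData (tA ℓ) (tB ℓ) (tD ℓ) N g σ g' →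
        ∀ x y, tauE g⁻¹ (tT ℓ x y) = tT ℓ (σ x) (tauE (g' x)⁻¹ y))
    (hAN2 : ∀ ℓ : Nat.Primes, ¬ (ℓ : ℕ) ∣ N → ∀ f : modularFunctionFieldBar N,
      haveI : Fact (ℓ : ℕ).Prime := ⟨ℓ.2⟩
      haveI : NeZero (ℓ : ℕ) := ⟨ℓ.2.ne_zero⟩
      letI := algebraAlong (heckeAlphaBar (AlgebraicClosure ℚ) N ℓ)
      ∏ x, tT ℓ x (iota e f) = iota e (Algebra.norm (modularFunctionFieldBar N)
        (heckeBetaBar (AlgebraicClosure ℚ) N ℓ f))) :
    Fermat.Agent.S42x.Heq.H23.StHeckeAn N p e ζ := by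
  intro ℓ hℓN f y b b' _ hyf hy hb'
  haveI : Fact (ℓ : ℕ).Prime := ⟨ℓ.2⟩
  haveI : NeZero (ℓ : ℕ) := ⟨ℓ.2.ne_zero⟩
  refine ⟨∏ x, tT ℓ x y, ?_, ?_⟩
  · rw [h21_prod_pow, hyf]
    exact hAN2 ℓ hℓN f
  · intro γ
    exact h21_prod_multiplier' (tA ℓ) (tB ℓ) (tD ℓ) (tT ℓ) (hconst ℓ) (hTT ℓ)
      (fun γ => exists_cosetData_T hℓN γ) ζ y b b' hy hb' γ

end Fermat.Agent.S42x.Heq.H21
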