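import Fermat.Agent.S37x.FF.H23_Top
import Fermat.Prelude.Def_ModularCurve_HeckeModule

/-!
# W7 (S42 / S29), (K-hecke), divisor half (helper23)

`F_N = modularFunctionFieldBar N` over `ℚ̄`, `α, β : F_N → F_{Nℓ}` the two degeneracy maps
(`α` the inclusion, `β : q ↦ q ^ ℓ`), `T_ℓ = α_* β^*` on `J₀(N) = Pic⁰(F_N)`.

* `h23_heckeOperatorBar_mk` : `T_ℓ [D] = [α_* β^* D]` (the prelude's total definition of the
  Hecke operator unfolded with the inputs of `S37x/FF`);
* `h23_hecke_div` : **(KH-DIV)** if `p D = div f` then `T_ℓ [D] = [D']` with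
  `p D' = div (Norm_α (β f))`.
-/

set_option autoImplicit false
set_option linter.style.haveILetI false
set_option synthInstance.maxHeartbeats 400000
set_option maxHeartbeats 1000000

open IntermediateField ModularCurve AlgebraicCurve
open Fermat.Agent.S37x.FF.H23

noncomputable section

namespace Fermat.Agent.S42x.Heq.H23

variable (N : ℕ) [NeZero N]

/-- `T_ℓ` on a class is the class of the correspondence `α_* β^*`. -/
theorem h23_heckeOperatorBar_mk (ℓ : Nat.Primes)
    (D : Divisor.degZero (K := AlgebraicClosure ℚ) (F := modularFunctionFieldBar N)) :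
    haveI : NeZero (ℓ : ℕ) := ⟨ℓ.2.ne_zero⟩
    haveI := h23_hasPrincipalDivisors Fermat.Agent.S18x.E.H12.h12_embQbar (N * ℓ)
    heckeOperatorBar N ℓ (Pic0.mk D) =
      Pic0.mk (Pic0.degZeroCorrespondence (heckeBetaBar (AlgebraicClosure ℚ) N ℓ)
        (heckeAlphaBar (AlgebraicClosure ℚ) N ℓ)
        (h23_heckeBetaBarIntegral (AlgebraicClosure ℚ) N ℓ)
        (h23_heckeAlphaBarIntegral (AlgebraicClosure ℚ) N ℓ)
        (h23_fundamentalIdentityAlong_beta Fermat.Agent.S18x.E.H12.h12_embQbar N ℓ) D) := by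
  haveI : NeZero (ℓ : ℕ) := ⟨ℓ.2.ne_zero⟩
  haveI := h23_hasPrincipalDivisors Fermat.Agent.S18x.E.H12.h12_embQbar (N * ℓ)
  rw [heckeOperatorBar_apply,
    heckeOperatorAlong_eq (h23_heckeAlphaBarIntegral (AlgebraicClosure ℚ) N ℓ)
      (h23_heckeBetaBarIntegral (AlgebraicClosure ℚ) N ℓ)
      (h23_fundamentalIdentityAlong_beta Fermat.Agent.S18x.E.H12.h12_embQbar N ℓ)
      (h23_finiteAlong_alpha (AlgebraicClosure ℚ) N ℓ)
      (h23_normFormulaAlong_alpha Fermat.Agent.S18x.E.H12.h12_embQbar N ℓ)]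
  rfl

/-- **(KH-DIV)**: the divisor half of (K-hecke). -/
theorem h23_hecke_div (ℓ : Nat.Primes) (p : ℕ) (f : modularFunctionFieldBar N) (hf : f ≠ 0)
    (D : Divisor.degZero (K := AlgebraicClosure ℚ) (F := modularFunctionFieldBar N))
    (hD : ∀ v : Place (AlgebraicClosure ℚ) (modularFunctionFieldBar N),
      (p : ℤ) * (D : Divisor (AlgebraicClosure ℚ) (modularFunctionFieldBar N)) v = v.ord f) :
    haveI : NeZero (ℓ : ℕ) := ⟨ℓ.2.ne_zero⟩
    letI := algebraAlong (heckeAlphaBar (AlgebraicClosure ℚ) N ℓ)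
    ∃ D' : Divisor.degZero (K := AlgebraicClosure ℚ) (F := modularFunctionFieldBar N),
      heckeOperatorBar N ℓ (Pic0.mk D) = Pic0.mk D' ∧
      Algebra.norm (modularFunctionFieldBar N) (heckeBetaBar (AlgebraicClosure ℚ) N ℓ f) ≠ 0 ∧
      ∀ v : Place (AlgebraicClosure ℚ) (modularFunctionFieldBar N),
        (p : ℤ) * (D' : Divisor (AlgebraicClosure ℚ) (modularFunctionFieldBar N)) v
          = v.ord (Algebra.norm (modularFunctionFieldBar N)
              (heckeBetaBar (AlgebraicClosure ℚ) N ℓ f)) := by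
  haveI : NeZero (ℓ : ℕ) := ⟨ℓ.2.ne_zero⟩
  haveI := h23_hasPrincipalDivisors Fermat.Agent.S18x.E.H12.h12_embQbar (N * ℓ)
  have hα := h23_heckeAlphaBarIntegral (AlgebraicClosure ℚ) N ℓ
  have hβ := h23_heckeBetaBarIntegral (AlgebraicClosure ℚ) N ℓ
  have hfin := h23_finiteAlong_alpha (AlgebraicClosure ℚ) N ℓ
  have hNF := h23_normFormulaAlong_alpha Fermat.Agent.S18x.E.H12.h12_embQbar N ℓ
  have hβf : heckeBetaBar (AlgebraicClosure ℚ) N ℓ f ≠ 0 :=
    (map_ne_zero_iff _ (heckeBetaBar (AlgebraicClosure ℚ) N ℓ).toRingHom.injective).mpr hf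
  refine ⟨_, h23_heckeOperatorBar_mk N ℓ D, ?_, fun v => ?_⟩
  · letI := algebraAlong (heckeAlphaBar (AlgebraicClosure ℚ) N ℓ)
    haveI : Module.Finite (modularFunctionFieldBar N)
        (laurentBaseChange (AlgebraicClosure ℚ) (modularFunctionFieldFull (N * ℓ))) := hfin
    exact Algebra.norm_ne_zero_iff.mpr hβf
  · -- `E := p • β^* D` is the divisor of `β f`
    set E : Divisor (AlgebraicClosure ℚ)
        (laurentBaseChange (AlgebraicClosure ℚ) (modularFunctionFieldFull (N * ℓ))) :=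
      Divisor.pullbackAlong (heckeBetaBar (AlgebraicClosure ℚ) N ℓ) hβ
        ((p : ℤ) • (D : Divisor (AlgebraicClosure ℚ) (modularFunctionFieldBar N))) with hE
    have hEord : ∀ w, E w = w.ord (heckeBetaBar (AlgebraicClosure ℚ) N ℓ f) := by
      intro w
      letI := algebraAlong (heckeBetaBar (AlgebraicClosure ℚ) N ℓ)
      haveI := isScalarTower_along (heckeBetaBar (AlgebraicClosure ℚ) N ℓ)
      haveI := isIntegral_along (heckeBetaBar (AlgebraicClosure ℚ) N ℓ) hβ
      exact Divisor.pullback_apply_eq_ord (F' := laurentBaseChange (AlgebraicClosure ℚ)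
        (modularFunctionFieldFull (N * ℓ))) (f := f)
        (D := (p : ℤ) • (D : Divisor (AlgebraicClosure ℚ) (modularFunctionFieldBar N)))
        (fun v => by rw [Finsupp.smul_apply, smul_eq_mul]; exact hD v) w
    have h1 : Divisor.pushforwardAlong (heckeAlphaBar (AlgebraicClosure ℚ) N ℓ) hα E v
        = v.ord (letI := algebraAlong (heckeAlphaBar (AlgebraicClosure ℚ) N ℓ)
            Algebra.norm (modularFunctionFieldBar N)
              (heckeBetaBar (AlgebraicClosure ℚ) N ℓ f)) := by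
      letI := algebraAlong (heckeAlphaBar (AlgebraicClosure ℚ) N ℓ)
      haveI := isScalarTower_along (heckeAlphaBar (AlgebraicClosure ℚ) N ℓ)
      haveI := isIntegral_along (heckeAlphaBar (AlgebraicClosure ℚ) N ℓ) hα
      haveI : Module.Finite (modularFunctionFieldBar N)
          (laurentBaseChange (AlgebraicClosure ℚ) (modularFunctionFieldFull (N * ℓ))) := hfin
      exact hNF _ hβf E hEord v
    rw [← h1, hE, map_zsmul, map_zsmul, Finsupp.smul_apply, smul_eq_mul]
    rfl

end Fermat.Agent.S42x.Heq.H23
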