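import Fermat.Agent.S42x.Heq.H9_Conj
import Fermat.Agent.S42x.Heq.H21_Mult

/-!
# W7 (KH-AN) (AN2c) [NORM-REL] (helper26): the norm formula, abstract assembly

`h26_an2_of` : the norm formula **(AN2)**
`∏ x, tT ℓ x (iota e f) = iota e (Norm_α (β f))`
from
* helper9's `h9_iota_norm_conj` (the norm along `α` is the product of the conjugates);
* **(AN2a)** `iota e (β f) = tT ℓ ∞ (iota e f)`;
* **(AN2b)** representatives `h x ∈ Γ₀(N)` with `α_∞ * h x = g' x * α_x`;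
* **(AN1)** the commutation rule of the translation operators with `tauE` (one index).

`h26_stHeckeAn_of` : helper23's `StHeckeAn N p e ζ` from the same inputs (helper21's
`h21_stHeckeAn_of`).
-/

set_option autoImplicit false
set_option linter.style.haveILetI false
set_option linter.unusedSectionVars false
set_option synthInstance.maxHeartbeats 400000
set_option maxHeartbeats 1000000

open IntermediateField ModularCurve ModularCurve.Period AlgebraicCurve CongruenceSubgroup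
open Fermat.Agent.S24.Mer Fermat.Agent.S24.Real Fermat.Agent.S22 Fermat.Agent.S16x.Low.H5
open Fermat.Agent.S42x.Kum.H12
open scoped MatrixGroups

noncomputable section

namespace Fermat.Agent.S42x.Heq.H26

/-- The one-index commutation rule: `δ_x g = g' δ_x'` implies
`tauE g⁻¹ (tT x y) = tT x' (tauE g'⁻¹ y)`. -/
def StComm (ℓ : ℕ) (tT : OnePoint (ZMod ℓ) → (MerH →+* MerH)) : Prop :=
  ∀ (g g' : SL(2, ℤ)) (x x' : OnePoint (ZMod ℓ)),
    tA ℓ x * g 0 0 + tB ℓ x * g 1 0 = g' 0 0 * tA ℓ x' →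
    tA ℓ x * g 0 1 + tB ℓ x * g 1 1 = g' 0 0 * tB ℓ x' + g' 0 1 * tD ℓ x' →
    tD ℓ x * g 1 0 = g' 1 0 * tA ℓ x' →
    tD ℓ x * g 1 1 = g' 1 0 * tB ℓ x' + g' 1 1 * tD ℓ x' →
    ∀ y : MerH, tauE g⁻¹ (tT x y) = tT x' (tauE g'⁻¹ y)

/-- The one-index rule gives the rule along coset data. -/
theorem StComm.cosetData {ℓ : ℕ} {tT : OnePoint (ZMod ℓ) → (MerH →+* MerH)}
    (h : StComm ℓ tT) {N : ℕ} (g : SL(2, ℤ)) (σ : Equiv.Perm (OnePoint (ZMod ℓ)))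
    (g' : OnePoint (ZMod ℓ) → SL(2, ℤ)) (hc : CosetData (tA ℓ) (tB ℓ) (tD ℓ) N g σ g')
    (x : OnePoint (ZMod ℓ)) (y : MerH) :
    tauE g⁻¹ (tT x y) = tT (σ x) (tauE (g' x)⁻¹ y) :=
  h g (g' x) x (σ x) (hc.2 x).1 (hc.2 x).2.1 (hc.2 x).2.2.1 (hc.2 x).2.2.2 y

/-- **(AN2b)** in helper8's spelling. -/
def StReps (N ℓ : ℕ) : Prop :=
  ∃ h g' : OnePoint (ZMod ℓ) → SL(2, ℤ),
    (∀ x, h x ∈ Gamma0 N) ∧ (∀ x, g' x ∈ Gamma0 N) ∧
    (∀ x y, h x * (h y)⁻¹ ∈ Gamma0 (N * ℓ) → x = y) ∧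
    ∀ x,
      tA ℓ OnePoint.infty * h x 0 0 + tB ℓ OnePoint.infty * h x 1 0 = g' x 0 0 * tA ℓ x ∧
      tA ℓ OnePoint.infty * h x 0 1 + tB ℓ OnePoint.infty * h x 1 1
        = g' x 0 0 * tB ℓ x + g' x 0 1 * tD ℓ x ∧
      tD ℓ OnePoint.infty * h x 1 0 = g' x 1 0 * tA ℓ x ∧
      tD ℓ OnePoint.infty * h x 1 1 = g' x 1 0 * tB ℓ x + g' x 1 1 * tD ℓ x

theorem card_onePoint_zmod (ℓ : ℕ) [NeZero ℓ] :
    Fintype.card (OnePoint (ZMod ℓ)) = ℓ + 1 := by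
  have h : Fintype.card (Option (ZMod ℓ)) = Fintype.card (ZMod ℓ) + 1 := Fintype.card_option
  rw [ZMod.card] at h
  rw [← h]
  exact Fintype.card_congr (Equiv.refl _)

/-- **(AN2)** the norm formula, from its inputs. -/
theorem h26_an2_of (N ℓ : ℕ) [NeZero N] [NeZero ℓ] (hℓ : ℓ.Prime) (hℓN : ¬ ℓ ∣ N)
    (e : AlgebraicClosure ℚ →+* ℂ)
    (tT : OnePoint (ZMod ℓ) → (MerH →+* MerH))
    (hcomm : StComm ℓ tT)
    (hbeta : ∀ f : modularFunctionFieldBar N,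
      iota e (heckeBetaBar (AlgebraicClosure ℚ) N ℓ f : FK (AlgebraicClosure ℚ) (N * ℓ))
        = tT OnePoint.infty (iota e (f : FK (AlgebraicClosure ℚ) N)))
    (hreps : StReps N ℓ) (f : modularFunctionFieldBar N) :
    letI := algebraAlong (heckeAlphaBar (AlgebraicClosure ℚ) N ℓ)
    ∏ x, tT x (iota e f) = iota e (Algebra.norm (modularFunctionFieldBar N)
      (heckeBetaBar (AlgebraicClosure ℚ) N ℓ f)) := by
  obtain ⟨h, g', hh, hg', hdist, heq⟩ := hreps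
  have hconj := Fermat.Agent.S42x.Heq.H9.h9_iota_norm_conj N ℓ e hℓ hℓN
    (card_onePoint_zmod ℓ) (fun k => (h k)⁻¹) (fun k => inv_mem (hh k))
    (fun k k' hkk' => hdist k k' (by simpa using hkk'))
    (heckeBetaBar (AlgebraicClosure ℚ) N ℓ f)
  refine Eq.trans ?_ hconj.symm
  refine Finset.prod_congr rfl fun x _ => ?_
  rw [hbeta f]
  have h1 := hcomm (h x) (g' x) OnePoint.infty x (heq x).1 (heq x).2.1 (heq x).2.2.1
    (heq x).2.2.2 (iota e (f : FK (AlgebraicClosure ℚ) N))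
  rw [h1, tauE_iota_of_mem e (inv_mem (hg' x))]

/-- **(KH-AN)** from its inputs (total families, as in helper21's `h21_stHeckeAn_of`). -/
theorem h26_stHeckeAn_of (N p : ℕ) [NeZero N] (e : AlgebraicClosure ℚ →+* ℂ) (ζ : ℂ)
    (tT : ∀ ℓ : ℕ, OnePoint (ZMod ℓ) → (MerH →+* MerH))
    (hconst : ∀ ℓ x c, tT ℓ x (cM c) = cM c)
    (hcomm : ∀ ℓ : ℕ, ℓ.Prime → StComm ℓ (tT ℓ))
    (hbeta : ∀ (ℓ : ℕ) [NeZero ℓ], ℓ.Prime → ∀ f : modularFunctionFieldBar N,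
      iota e (heckeBetaBar (AlgebraicClosure ℚ) N ℓ f : FK (AlgebraicClosure ℚ) (N * ℓ))
        = tT ℓ OnePoint.infty (iota e (f : FK (AlgebraicClosure ℚ) N)))
    (hreps : ∀ ℓ : ℕ, ℓ.Prime → ¬ ℓ ∣ N → StReps N ℓ) :
    Fermat.Agent.S42x.Heq.H23.StHeckeAn N p e ζ := by
  refine Fermat.Agent.S42x.Heq.H21.h21_stHeckeAn_of N p e ζ tT hconst
    (fun ℓ _ g σ g' hc x y => (hcomm ℓ Fact.out).cosetData g σ g' hc x y) ?_
  intro ℓ hℓN f
  haveI : NeZero (ℓ : ℕ) := ⟨ℓ.2.ne_zero⟩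
  exact h26_an2_of N ℓ ℓ.2 hℓN e (tT ℓ) (hcomm ℓ ℓ.2) (hbeta ℓ ℓ.2) (hreps ℓ ℓ.2 hℓN) f

end Fermat.Agent.S42x.Heq.H26
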