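import Fermat.Agent.S42x.Heq.H3_TauD
import Fermat.Agent.S42x.Heq.H3_Level
import Fermat.Agent.S42x.Heq.H8_Reps
import Fermat.Agent.S42x.Heq.H26_NormRel

/-!
# W7 (S42 / S29), (KH-AN) (helper3): the analytic half of (K-hecke)

`h3_stHeckeAn : StHeckeAn N p e ζ` (helper23's Prop, `Heq/H23_Asm`), for every `N ≥ 1`, every
natural number `p`, every embedding `e` and every `ζ`:
helper26's abstract assembly `h26_stHeckeAn_of` with

* the translation operators `h3tauT` of `Heq/H3_TauD` (constants, commutation rule);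
* `h3_level_beta` (`Heq/H3_Level`): `iota (β f) = (iota f) (ℓ z)`;
* helper8's representatives `exists_reps`.
-/

set_option autoImplicit false
set_option linter.style.haveILetI false

open UpperHalfPlane CongruenceSubgroup ModularCurve
open Fermat.Agent.S24.Mer Fermat.Agent.S24.Real Fermat.Agent.S23 Fermat.Agent.S22
open scoped MatrixGroups

namespace Fermat.Agent.S42x.Heq.H3

/-- `h3tauT ℓ ∞` is `F ↦ F (ℓ z)` on holomorphic functions. -/
theorem h3tauT_infty_algebraMap (ℓ : ℕ) [NeZero ℓ] (F G : HolH)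
    (h : ∀ z : ℍ, (G : ℍ → ℂ) z = (F : ℍ → ℂ) (scaleN ℓ z)) :
    h3tauT ℓ OnePoint.infty (algebraMap HolH MerH F) = algebraMap HolH MerH G := by
  have hℓ : 0 < ℓ := Nat.pos_of_ne_zero (NeZero.ne ℓ)
  have ha : 0 < tA ℓ OnePoint.infty := tA_pos hℓ _
  have hd : 0 < tD ℓ OnePoint.infty := tD_pos hℓ _
  rw [h3tauT, h3tauDE_algebraMap _ _ _ ha hd]
  congr 1
  apply Subtype.ext
  funext z
  rw [h3tauD_apply, h z]
  have hz : h3dAct (tA ℓ OnePoint.infty) (tB ℓ OnePoint.infty) (tD ℓ OnePoint.infty) ha hd z =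
      scaleN ℓ z := by
    apply UpperHalfPlane.ext
    rw [coe_h3dAct, coe_scaleN, tA_infty, tB_infty, tD_infty]
    push_cast
    ring
  rw [hz]

/-- **(AN1), one-index rule**, in helper26's spelling. -/
theorem h3_stComm (ℓ : ℕ) (hℓ : 0 < ℓ) : Fermat.Agent.S42x.Heq.H26.StComm ℓ (h3tauT ℓ) :=
  fun g g' x x' h1 h2 h3 h4 y => h3tauT_tauE hℓ g g' x x' h1 h2 h3 h4 y

/-- **(AN2b)** in helper26's spelling. -/
theorem h3_stReps (N ℓ : ℕ) (hℓ : ℓ.Prime) (hN : ¬ ℓ ∣ N) :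
    Fermat.Agent.S42x.Heq.H26.StReps N ℓ := by
  obtain ⟨h, g', hh, hg', -, hdist, -, -, heq⟩ := Fermat.Agent.S42x.Heq.H8.exists_reps N ℓ hℓ hN
  exact ⟨h, g', hh, hg', hdist, heq⟩

/-- **(KH-AN)**: the analytic half of (K-hecke), helper23's `StHeckeAn` verbatim. -/
theorem h3_stHeckeAn (N p : ℕ) [NeZero N] (e : AlgebraicClosure ℚ →+* ℂ) (ζ : ℂ) :
    Fermat.Agent.S42x.Heq.H23.StHeckeAn N p e ζ :=
  Fermat.Agent.S42x.Heq.H26.h26_stHeckeAn_of N p e ζ h3tauT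
    (fun ℓ x c => h3tauT_const ℓ x c)
    (fun ℓ hℓ => h3_stComm ℓ hℓ.pos)
    (fun ℓ _ _ f => h3_level_beta e N ℓ (h3tauT ℓ OnePoint.infty)
      (h3tauT_infty_algebraMap ℓ) f)
    (fun ℓ hℓ hN => h3_stReps N ℓ hℓ hN)

end Fermat.Agent.S42x.Heq.H3
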