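import Fermat.Agent.S24.H21_Mer
import Fermat.Agent.S22.HeckeAbs

/-!
# W7 (S42 / S29), (KH-AN), leaf (AN1) (helper3, spare): translation operators on `MerH`

For integers `a, d > 0` and `b` the map `z ↦ (a z + b) / d` of the upper half plane, the ring
endomorphism `F ↦ F ((a z + b) / d)` of `HolH` and its extension to `MerH`, with the
composition rule against `tauE` for a matrix identity `δ g = g' δ'`.

* `h3dAct`, `h3tauD`, `h3tauDE` (total: the identity if `a ≤ 0` or `d ≤ 0`);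
* `h3tauDE_algebraMap`, `h3tauDE_const`;
* `h3dAct_smul`, `h3tauDE_tauE` : the one-index commutation rule;
* `h3tauT ℓ x := h3tauDE (tA ℓ x) (tB ℓ x) (tD ℓ x)`.
-/

set_option autoImplicit false
set_option linter.style.haveILetI false

open UpperHalfPlane Fermat.Agent.S24.Mer Fermat.Agent.S22
open scoped Manifold MatrixGroups Topology

namespace Fermat.Agent.S42x.Heq.H3

/-- The point `(a z + b) / d` of the upper half plane. -/
noncomputable def h3dAct (a b d : ℤ) (ha : 0 < a) (hd : 0 < d) (z : ℍ) : ℍ :=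
  ⟨((a : ℂ) * z + b) / d, by
    have hd0 : (d : ℝ) ≠ 0 := by exact_mod_cast hd.ne'
    have h2 : ((a : ℂ) * z + b) / d = (((a : ℝ) / d : ℝ) : ℂ) * z + (((b : ℝ) / d : ℝ) : ℂ) := by
      have hdC : (d : ℂ) ≠ 0 := by exact_mod_cast hd.ne'
      push_cast
      field_simp
    have h1 : (((a : ℂ) * z + b) / d).im = (a : ℝ) * z.im / d := by
      rw [h2, Complex.add_im, Complex.im_ofReal_mul, Complex.ofReal_im, add_zero]
      rw [UpperHalfPlane.coe_im]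
      ring
    rw [h1]
    have ha' : (0 : ℝ) < a := by exact_mod_cast ha
    have hd' : (0 : ℝ) < d := by exact_mod_cast hd
    exact div_pos (mul_pos ha' z.im_pos) hd'⟩

theorem coe_h3dAct (a b d : ℤ) (ha : 0 < a) (hd : 0 < d) (z : ℍ) :
    ((h3dAct a b d ha hd z : ℍ) : ℂ) = ((a : ℂ) * z + b) / d := rfl

theorem h3_mdiff_comp_dAct {f : ℍ → ℂ} (hf : MDifferentiable 𝓘(ℂ) 𝓘(ℂ) f)
    (a b d : ℤ) (ha : 0 < a) (hd : 0 < d) :
    MDifferentiable 𝓘(ℂ) 𝓘(ℂ) (fun z : ℍ => f (h3dAct a b d ha hd z)) := by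
  rw [UpperHalfPlane.mdifferentiable_iff] at hf ⊢
  have hmaps : Set.MapsTo (fun w : ℂ => ((a : ℂ) * w + b) / d) {z : ℂ | 0 < z.im}
      {z : ℂ | 0 < z.im} := by
    intro w hw
    simp only [Set.mem_ofPred_eq] at hw ⊢
    exact (h3dAct a b d ha hd ⟨w, hw⟩).im_pos
  have hdiff : Differentiable ℂ (fun w : ℂ => ((a : ℂ) * w + b) / d) :=
    ((differentiable_id.const_mul (a : ℂ)).add_const (b : ℂ)).div_const (d : ℂ)
  have hcomp : DifferentiableOn ℂ ((f ∘ ofComplex) ∘ fun w : ℂ => ((a : ℂ) * w + b) / d)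
      {z : ℂ | 0 < z.im} := hf.comp hdiff.differentiableOn hmaps
  refine hcomp.congr fun w hw => ?_
  simp only [Set.mem_ofPred_eq] at hw
  have hw' : 0 < (((a : ℂ) * w + b) / d).im := hmaps hw
  simp only [Function.comp_apply]
  congr 1
  apply UpperHalfPlane.ext
  rw [coe_h3dAct, ofComplex_apply_of_im_pos hw, ofComplex_apply_of_im_pos hw']

/-- `z ↦ (a z + b) / d` is surjective. -/
theorem h3dAct_surjective (a b d : ℤ) (ha : 0 < a) (hd : 0 < d) :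
    Function.Surjective (h3dAct a b d ha hd) := by
  intro w
  refine ⟨h3dAct d (-b) a hd ha w, ?_⟩
  apply UpperHalfPlane.ext
  rw [coe_h3dAct, coe_h3dAct]
  have ha' : (a : ℂ) ≠ 0 := by exact_mod_cast ha.ne'
  have hd' : (d : ℂ) ≠ 0 := by exact_mod_cast hd.ne'
  push_cast
  field_simp
  ring

/-- `F ↦ F ((a z + b) / d)` on holomorphic functions. -/
noncomputable def h3tauD (a b d : ℤ) (ha : 0 < a) (hd : 0 < d) : HolH →+* HolH where
  toFun f := ⟨fun z => (f : ℍ → ℂ) (h3dAct a b d ha hd z), h3_mdiff_comp_dAct f.2 a b d ha hd⟩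
  map_one' := rfl
  map_mul' _ _ := rfl
  map_zero' := rfl
  map_add' _ _ := rfl

theorem h3tauD_apply (a b d : ℤ) (ha : 0 < a) (hd : 0 < d) (f : HolH) (z : ℍ) :
    (h3tauD a b d ha hd f : ℍ → ℂ) z = (f : ℍ → ℂ) (h3dAct a b d ha hd z) := rfl

theorem h3tauD_injective (a b d : ℤ) (ha : 0 < a) (hd : 0 < d) :
    Function.Injective (h3tauD a b d ha hd) := by
  intro f g hfg
  apply Subtype.ext
  funext w
  obtain ⟨z, rfl⟩ := h3dAct_surjective a b d ha hd w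
  exact congrFun (congrArg Subtype.val hfg) z

theorem h3tauD_constH (a b d : ℤ) (ha : 0 < a) (hd : 0 < d) (c : ℂ) :
    h3tauD a b d ha hd (constH c) = constH c := rfl

/-- `F ↦ F ((a z + b) / d)` on meromorphic functions, for `a, d > 0`. -/
noncomputable def h3tauDEpos (a b d : ℤ) (ha : 0 < a) (hd : 0 < d) : MerH →+* MerH :=
  IsFractionRing.lift (A := HolH) (K := MerH)
    (g := (algebraMap HolH MerH).comp (h3tauD a b d ha hd))
    ((IsFractionRing.injective HolH MerH).comp (h3tauD_injective a b d ha hd))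

theorem h3tauDEpos_algebraMap (a b d : ℤ) (ha : 0 < a) (hd : 0 < d) (f : HolH) :
    h3tauDEpos a b d ha hd (algebraMap HolH MerH f) =
      algebraMap HolH MerH (h3tauD a b d ha hd f) :=
  IsFractionRing.lift_algebraMap
    (g := (algebraMap HolH MerH).comp (h3tauD a b d ha hd))
    ((IsFractionRing.injective HolH MerH).comp (h3tauD_injective a b d ha hd)) f

/-- The total version: the identity unless `a, d > 0`. -/
noncomputable def h3tauDE (a b d : ℤ) : MerH →+* MerH :=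
  if h : 0 < a ∧ 0 < d then h3tauDEpos a b d h.1 h.2 else RingHom.id MerH

theorem h3tauDE_pos (a b d : ℤ) (ha : 0 < a) (hd : 0 < d) :
    h3tauDE a b d = h3tauDEpos a b d ha hd := by
  rw [h3tauDE, dif_pos ⟨ha, hd⟩]

theorem h3tauDE_algebraMap (a b d : ℤ) (ha : 0 < a) (hd : 0 < d) (f : HolH) :
    h3tauDE a b d (algebraMap HolH MerH f) = algebraMap HolH MerH (h3tauD a b d ha hd f) := by
  rw [h3tauDE_pos a b d ha hd, h3tauDEpos_algebraMap]

/-- Constants are fixed. -/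
theorem h3tauDE_const (a b d : ℤ) (c : ℂ) :
    h3tauDE a b d (algebraMap HolH MerH (constH c)) = algebraMap HolH MerH (constH c) := by
  by_cases h : 0 < a ∧ 0 < d
  · rw [h3tauDE_algebraMap a b d h.1 h.2, h3tauD_constH]
  · rw [h3tauDE, dif_neg h]
    rfl

theorem h3_aux1 (a b d P Q : ℂ) (hd : d ≠ 0) (hQ : Q ≠ 0) :
    (a * (P / Q) + b) / d = (a * P + b * Q) / (d * Q) := by
  field_simp

theorem h3_aux2 (g00 g01 g10 g11 W d' : ℂ) (hd' : d' ≠ 0) (h : g10 * (W / d') + g11 ≠ 0) :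
    (g00 * (W / d') + g01) / (g10 * (W / d') + g11) =
      (g00 * W + g01 * d') / (g10 * W + g11 * d') := by
  have h2 : g10 * W + g11 * d' ≠ 0 := by
    intro h0
    apply h
    have : g10 * (W / d') + g11 = (g10 * W + g11 * d') / d' := by field_simp
    rw [this, h0, zero_div]
  rw [div_eq_div_iff h h2]
  field_simp

/-- `δ (g z) = g' (δ' z)` if `δ g = g' δ'`. -/
theorem h3dAct_smul (g g' : SL(2, ℤ)) (a b d a' b' d' : ℤ) (ha : 0 < a) (hd : 0 < d)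
    (ha' : 0 < a') (hd' : 0 < d')
    (h1 : a * g 0 0 + b * g 1 0 = g' 0 0 * a')
    (h2 : a * g 0 1 + b * g 1 1 = g' 0 0 * b' + g' 0 1 * d')
    (h3 : d * g 1 0 = g' 1 0 * a')
    (h4 : d * g 1 1 = g' 1 0 * b' + g' 1 1 * d') (z : ℍ) :
    h3dAct a b d ha hd (g • z) = g' • h3dAct a' b' d' ha' hd' z := by
  apply UpperHalfPlane.ext
  rw [coe_h3dAct, coe_specialLinearGroup_apply, coe_specialLinearGroup_apply, coe_h3dAct]
  have e1 : (a : ℂ) * (g 0 0 : ℤ) + b * (g 1 0 : ℤ) = (g' 0 0 : ℤ) * a' := by exact_mod_cast h1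
  have e2 : (a : ℂ) * (g 0 1 : ℤ) + b * (g 1 1 : ℤ) = (g' 0 0 : ℤ) * b' + (g' 0 1 : ℤ) * d' := by
    exact_mod_cast h2
  have e3 : (d : ℂ) * (g 1 0 : ℤ) = (g' 1 0 : ℤ) * a' := by exact_mod_cast h3
  have e4 : (d : ℂ) * (g 1 1 : ℤ) = (g' 1 0 : ℤ) * b' + (g' 1 1 : ℤ) * d' := by exact_mod_cast h4
  have hdC : (d : ℂ) ≠ 0 := by exact_mod_cast hd.ne'
  have hdC' : (d' : ℂ) ≠ 0 := by exact_mod_cast hd'.ne'
  have hden1 : (((g 1 0 : ℤ) : ℝ) : ℂ) * (z : ℂ) + (((g 1 1 : ℤ) : ℝ) : ℂ) ≠ 0 := by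
    have := UpperHalfPlane.denom_ne_zero (Matrix.SpecialLinearGroup.mapGL ℝ g) z
    simpa [UpperHalfPlane.denom] using this
  have hden2 : (((g' 1 0 : ℤ) : ℝ) : ℂ) * ((h3dAct a' b' d' ha' hd' z : ℍ) : ℂ) +
      (((g' 1 1 : ℤ) : ℝ) : ℂ) ≠ 0 := by
    have := UpperHalfPlane.denom_ne_zero (Matrix.SpecialLinearGroup.mapGL ℝ g')
      (h3dAct a' b' d' ha' hd' z)
    simpa [UpperHalfPlane.denom] using this
  rw [coe_h3dAct] at hden2
  push_cast at hden1 hden2 ⊢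
  simp only [eq_intCast, Complex.ofReal_intCast] at hden1 hden2 ⊢
  rw [h3_aux1 _ _ _ _ _ hdC hden1, h3_aux2 _ _ _ _ _ _ hdC' hden2]
  congr 1
  · linear_combination (z : ℂ) * e1 + e2
  · linear_combination (z : ℂ) * e3 + e4

/-- **The one-index commutation rule** for a matrix identity `δ g = g' δ'`. -/
theorem h3tauDE_tauE (g g' : SL(2, ℤ)) (a b d a' b' d' : ℤ) (ha : 0 < a) (hd : 0 < d)
    (ha' : 0 < a') (hd' : 0 < d')
    (h1 : a * g 0 0 + b * g 1 0 = g' 0 0 * a')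
    (h2 : a * g 0 1 + b * g 1 1 = g' 0 0 * b' + g' 0 1 * d')
    (h3 : d * g 1 0 = g' 1 0 * a')
    (h4 : d * g 1 1 = g' 1 0 * b' + g' 1 1 * d') (y : MerH) :
    tauE g⁻¹ (h3tauDE a b d y) = h3tauDE a' b' d' (tauE g'⁻¹ y) := by
  obtain ⟨u, v, hv, rfl⟩ := IsFractionRing.div_surjective (A := HolH) y
  have key : ∀ F : HolH, tau g⁻¹ (h3tauD a b d ha hd F) = h3tauD a' b' d' ha' hd' (tau g'⁻¹ F) := by
    intro F
    apply Subtype.ext
    funext z
    show (F : ℍ → ℂ) (h3dAct a b d ha hd (g⁻¹⁻¹ • z)) =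
      (F : ℍ → ℂ) (g'⁻¹⁻¹ • h3dAct a' b' d' ha' hd' z)
    rw [inv_inv, inv_inv, h3dAct_smul g g' a b d a' b' d' ha hd ha' hd' h1 h2 h3 h4]
  simp only [map_div₀, h3tauDE_algebraMap a b d ha hd, h3tauDE_algebraMap a' b' d' ha' hd',
    tauE_algebraMap, key]

/-- The translation operators of the Hecke operator `T_ℓ`: `x = ∞ : F ↦ F (ℓ z)`,
`x = j : F ↦ F ((z + j) / ℓ)`. -/
noncomputable def h3tauT (ℓ : ℕ) (x : OnePoint (ZMod ℓ)) : MerH →+* MerH :=
  h3tauDE (tA ℓ x) (tB ℓ x) (tD ℓ x)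

theorem h3tauT_const (ℓ : ℕ) (x : OnePoint (ZMod ℓ)) (c : ℂ) :
    h3tauT ℓ x (algebraMap HolH MerH (constH c)) = algebraMap HolH MerH (constH c) :=
  h3tauDE_const _ _ _ c

theorem h3tauT_tauE {ℓ : ℕ} (hℓ : 0 < ℓ) (g g' : SL(2, ℤ)) (x x' : OnePoint (ZMod ℓ))
    (h1 : tA ℓ x * g 0 0 + tB ℓ x * g 1 0 = g' 0 0 * tA ℓ x')
    (h2 : tA ℓ x * g 0 1 + tB ℓ x * g 1 1 = g' 0 0 * tB ℓ x' + g' 0 1 * tD ℓ x')
    (h3 : tD ℓ x * g 1 0 = g' 1 0 * tA ℓ x')
    (h4 : tD ℓ x * g 1 1 = g' 1 0 * tB ℓ x' + g' 1 1 * tD ℓ x') (y : MerH) :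
    tauE g⁻¹ (h3tauT ℓ x y) = h3tauT ℓ x' (tauE g'⁻¹ y) :=
  h3tauDE_tauE g g' _ _ _ _ _ _ (tA_pos hℓ x) (tD_pos hℓ x) (tA_pos hℓ x') (tD_pos hℓ x')
    h1 h2 h3 h4 y

end Fermat.Agent.S42x.Heq.H3
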