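import Fermat.Agent.S37x.Norm.H3_Deg
import Fermat.Agent.S24.H21_Iota
import Fermat.Agent.S24.H21_Galois

/-!
# W7 (KH-AN) (AN2) (helper9), part 1: the norm along `α` as a product of conjugates

* `h9_iota_congr`      : the realisation `iota e f` depends only on the `q`-expansion of `f`
  (across levels);
* `h9_iota_alpha`      : `iota (α a) = iota a`;
* `h9_iota_norm_conj`  : for a family `g_k ∈ Γ₀(N)` of `ℓ + 1` elements, pairwise inequivalent
  modulo `Γ₀(Nℓ)`:  `iota (Norm_α b) = ∏ k, tauE (g k) (iota b)` for all `b ∈ F_{Nℓ}`.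
-/

set_option autoImplicit false
set_option synthInstance.maxHeartbeats 400000
set_option maxHeartbeats 1000000
set_option linter.unusedSectionVars false
set_option linter.style.haveILetI false

open AlgebraicCurve IntermediateField ModularCurve UpperHalfPlane CongruenceSubgroup
open Fermat.Agent.S24 Fermat.Agent.S24.Mer Fermat.Agent.S24.Real
open scoped MatrixGroups

noncomputable section

namespace Fermat.Agent.S42x.Heq.H9

section Congr

variable {K : Type*} [Field K] [Algebra ℚ K] (e : K →+* ℂ)

/-- The realisation depends only on the `q`-expansion. -/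
theorem h9_iota_congr {N N' : ℕ} (f : FK K N) (f' : FK K N')
    (h : (f : LaurentSeries K) = (f' : LaurentSeries K)) : iota e f = iota e f' := by
  obtain ⟨a, b, hb, hab⟩ := exists_frac f
  obtain ⟨a', b', hb', hab'⟩ := exists_frac f'
  rw [iota_eq_div e f a b hb hab, iota_eq_div e f' a' b' hb' hab',
    div_eq_div_iff (algebraMap_MerH_ne_zero (rhoH_ne_zero e hb))
      (algebraMap_MerH_ne_zero (rhoH_ne_zero e hb')), ← map_mul, ← map_mul]
  congr 1
  apply Subtype.ext
  show rho e a * rho e b' = rho e a' * rho e b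
  have hab1 : (f : LaurentSeries K) * (b : LaurentSeries K) = (a : LaurentSeries K) :=
    congrArg Subtype.val hab
  have hab2 : (f' : LaurentSeries K) * (b' : LaurentSeries K) = (a' : LaurentSeries K) :=
    congrArg Subtype.val hab'
  have hs : (a : LaurentSeries K) * (b' : LaurentSeries K) =
      (a' : LaurentSeries K) * (b : LaurentSeries K) := by
    rw [← hab1, ← hab2, h]
    ring
  have h1 : IsReal (coeffMap e ((a : LaurentSeries K) * (b' : LaurentSeries K)))
      (rho e a * rho e b') := by
    rw [map_mul]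
    exact (isModReal_rho e a).real.mul (isModReal_rho e b').real
  have h2 : IsReal (coeffMap e ((a' : LaurentSeries K) * (b : LaurentSeries K)))
      (rho e a' * rho e b) := by
    rw [map_mul]
    exact (isModReal_rho e a').real.mul (isModReal_rho e b).real
  rw [hs] at h1
  exact h1.unique_fun h2

end Congr

section Norm

variable (N ℓ : ℕ) [NeZero N] [NeZero ℓ] (e : AlgebraicClosure ℚ →+* ℂ)

/-- `iota (α a) = iota a`. -/
theorem h9_iota_alpha (a : modularFunctionFieldBar N) :
    iota e (heckeAlphaBar (AlgebraicClosure ℚ) N ℓ a : FK (AlgebraicClosure ℚ) (N * ℓ)) =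
      iota e (a : FK (AlgebraicClosure ℚ) N) :=
  h9_iota_congr e _ _ (coe_heckeAlphaBar N ℓ a)

/-- The conjugate embeddings only depend on the coset modulo `Γ₀(M)`. -/
theorem h9_tauE_iota_out {M : ℕ} (g : SL(2, ℤ)) (b : FK (AlgebraicClosure ℚ) M) :
    tauE (Quotient.out (QuotientGroup.mk g : SL(2, ℤ) ⧸ Gamma0 M)) (iota e b) =
      tauE g (iota e b) := by
  obtain ⟨h, hh⟩ := QuotientGroup.mk_out_eq_mul (Gamma0 M) g
  rw [hh, tauE_mul, tauE_iota_of_mem e h.2]

/-- **The norm along `α` is the product of the conjugates.** -/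
theorem h9_iota_norm_conj (hℓ : ℓ.Prime) (hℓN : ¬ ℓ ∣ N) {X : Type*} [Fintype X]
    (hX : Fintype.card X = ℓ + 1) (g : X → SL(2, ℤ)) (hg : ∀ k, g k ∈ Gamma0 N)
    (hdist : ∀ k k', (g k)⁻¹ * g k' ∈ Gamma0 (N * ℓ) → k = k')
    (b : modularFunctionFieldBar (N * ℓ)) :
    letI := algebraAlong (heckeAlphaBar (AlgebraicClosure ℚ) N ℓ)
    iota e (Algebra.norm (modularFunctionFieldBar N) b : FK (AlgebraicClosure ℚ) N) =
      ∏ k, tauE (g k) (iota e (b : FK (AlgebraicClosure ℚ) (N * ℓ))) := by
  letI := algebraAlong (heckeAlphaBar (AlgebraicClosure ℚ) N ℓ)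
  haveI : NeZero (N * ℓ) := ⟨mul_ne_zero (NeZero.ne N) (NeZero.ne ℓ)⟩
  have hfr : Module.finrank (modularFunctionFieldBar N) (modularFunctionFieldBar (N * ℓ)) = ℓ + 1 :=
    Fermat.Agent.S37x.Norm.H3.h3_finrank_alpha N ℓ hℓ hℓN
  haveI : Module.Finite (modularFunctionFieldBar N) (modularFunctionFieldBar (N * ℓ)) :=
    Module.finite_of_finrank_pos (by rw [hfr]; exact Nat.succ_pos _)
  haveI : CharZero (modularFunctionFieldBar N) :=
    charZero_of_injective_algebraMap (R := AlgebraicClosure ℚ)
      (FaithfulSMul.algebraMap_injective (AlgebraicClosure ℚ) (modularFunctionFieldBar N))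
  haveI : Algebra.IsSeparable (modularFunctionFieldBar N) (modularFunctionFieldBar (N * ℓ)) :=
    inferInstance
  let sg : X → (modularFunctionFieldBar (N * ℓ) →+* MerH) := fun k =>
    (tauE (g k)).toRingHom.comp (iota e)
  have hsig : ∀ k (a : modularFunctionFieldBar N),
      sg k (algebraMap (modularFunctionFieldBar N) (modularFunctionFieldBar (N * ℓ)) a) =
        iota e (a : FK (AlgebraicClosure ℚ) N) := by
    intro k a
    show tauE (g k) (iota e (heckeAlphaBar (AlgebraicClosure ℚ) N ℓ a :
      FK (AlgebraicClosure ℚ) (N * ℓ))) = _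
    rw [h9_iota_alpha, tauE_iota_of_mem e (hg k)]
  have hinj : Function.Injective sg := by
    intro k k' hkk'
    apply hdist
    have h1 : sig e (QuotientGroup.mk (g k) : SL(2, ℤ) ⧸ Gamma0 (N * ℓ)) =
        sig e (QuotientGroup.mk (g k') : SL(2, ℤ) ⧸ Gamma0 (N * ℓ)) := by
      apply RingHom.ext
      intro x
      rw [sig_apply, sig_apply, h9_tauE_iota_out, h9_tauE_iota_out]
      exact DFunLike.congr_fun hkk' x
    have h2 := sig_injective e h1
    exact QuotientGroup.eq.mp h2
  have := norm_eq_prod_of_card (iota e) sg hsig hinj (by rw [hfr, hX]) b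
  exact this

end Norm

end Fermat.Agent.S42x.Heq.H9
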